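import Mathlib
import Fermat.Prelude.Def_AlgebraicCurve_Repartitions
import Fermat.Prelude.Def_AlgebraicCurve_CanonicalDivisor

/-!
# Riemann–Roch (item 72): the two lattices attached to a divisor

For `x : F` and a divisor `D` of the function field `F / K`:
* `lamFin x D` : functions `f` with `ord_v f ≥ -D v` at all places `v` where `x` is finite;
* `lamInf x D` : functions `f` with `ord_v f ≥ -D v` at all places `v` where `x` has a pole.
Their intersection is the Riemann–Roch space `L(D)` of the prelude.
-/

set_option autoImplicit false

open AlgebraicCurve WithZero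

noncomputable section

namespace Fermat.Agent.RR

variable {K F : Type*} [Field K] [Field F] [Algebra K F]

/-- The lattice of functions with poles bounded by `D` at the places where `x` is finite. -/
def lamFin (x : F) (D : Divisor K F) : Submodule K F where
  carrier := {f | ∀ v : Place K F, 0 ≤ v.ord x → v.adicValuation f ≤ exp (D v)}
  zero_mem' := by
    intro v _
    simp
  add_mem' := by
    intro f g hf hg v hv
    exact (Valuation.map_add _ _ _).trans (max_le (hf v hv) (hg v hv))
  smul_mem' := by
    intro c f hf v hv
    show v.adicValuation (c • f) ≤ exp (D v)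
    rw [Algebra.smul_def, map_mul]
    exact (mul_le_of_le_one_left' (v.adicValuation_algebraMap_le_one c)).trans (hf v hv)

/-- The lattice of functions with poles bounded by `D` at the places where `x` has a pole. -/
def lamInf (x : F) (D : Divisor K F) : Submodule K F where
  carrier := {f | ∀ v : Place K F, v.ord x < 0 → v.adicValuation f ≤ exp (D v)}
  zero_mem' := by
    intro v _
    simp
  add_mem' := by
    intro f g hf hg v hv
    exact (Valuation.map_add _ _ _).trans (max_le (hf v hv) (hg v hv))
  smul_mem' := by
    intro c f hf v hv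
    show v.adicValuation (c • f) ≤ exp (D v)
    rw [Algebra.smul_def, map_mul]
    exact (mul_le_of_le_one_left' (v.adicValuation_algebraMap_le_one c)).trans (hf v hv)

theorem mem_lamFin_iff {x : F} {D : Divisor K F} {f : F} :
    f ∈ lamFin x D ↔ ∀ v : Place K F, 0 ≤ v.ord x → f = 0 ∨ -D v ≤ v.ord f := by
  show (∀ v : Place K F, 0 ≤ v.ord x → v.adicValuation f ≤ exp (D v)) ↔ _
  exact forall_congr' fun v => imp_congr_right fun _ => v.adicValuation_le_exp_iff

theorem mem_lamInf_iff {x : F} {D : Divisor K F} {f : F} :
    f ∈ lamInf x D ↔ ∀ v : Place K F, v.ord x < 0 → f = 0 ∨ -D v ≤ v.ord f := by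
  show (∀ v : Place K F, v.ord x < 0 → v.adicValuation f ≤ exp (D v)) ↔ _
  exact forall_congr' fun v => imp_congr_right fun _ => v.adicValuation_le_exp_iff

/-- The Riemann–Roch space is the intersection of the two lattices. -/
theorem riemannRochSpace_eq_inf (x : F) (D : Divisor K F) :
    riemannRochSpace D = lamFin x D ⊓ lamInf x D := by
  ext f
  rw [Submodule.mem_inf, mem_riemannRochSpace_iff, mem_lamFin_iff, mem_lamInf_iff]
  constructor
  · intro h
    exact ⟨fun v _ => h v, fun v _ => h v⟩
  · rintro ⟨h1, h2⟩ v
    rcases le_or_gt 0 (v.ord x) with hv | hv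
    · exact h1 v hv
    · exact h2 v hv

theorem lamFin_mono (x : F) {D D' : Divisor K F} (h : D ≤ D') : lamFin x D ≤ lamFin x D' :=
  fun _ hf v hv => (hf v hv).trans (exp_le_exp.mpr (Finsupp.le_def.mp h v))

theorem lamInf_mono (x : F) {D D' : Divisor K F} (h : D ≤ D') : lamInf x D ≤ lamInf x D' :=
  fun _ hf v hv => (hf v hv).trans (exp_le_exp.mpr (Finsupp.le_def.mp h v))

end Fermat.Agent.RR
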