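import Mathlib
import Fermat.Agent.RR.Defs
import Fermat.Agent.FF.Interface

/-!
# Item 72 (Riemann–Roch), R3–R5 interface (owner helper9)

* `H1' x D = F ⧸ (lamFin x D ⊔ lamInf x D)`, `chi x D = l(D) - h¹(D)`;
* `RiemannData K x` : the output of R3 (finiteness, index formula), input of R4, R5;
* multiplication lemmas for the lattices.
-/

set_option autoImplicit false
set_option linter.unusedSectionVars false

open AlgebraicCurve WithZero

noncomputable section

namespace Fermat.Agent.RR

variable {K F : Type*} [Field K] [Field F] [Algebra K F]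

theorem mem_lamFin_iff' {x : F} {D : Divisor K F} {f : F} (hf : f ≠ 0) :
    f ∈ lamFin x D ↔ ∀ v : Place K F, 0 ≤ v.ord x → -D v ≤ v.ord f := by
  rw [mem_lamFin_iff]
  exact forall_congr' fun v => imp_congr_right fun _ => or_iff_right hf

theorem mem_lamInf_iff' {x : F} {D : Divisor K F} {f : F} (hf : f ≠ 0) :
    f ∈ lamInf x D ↔ ∀ v : Place K F, v.ord x < 0 → -D v ≤ v.ord f := by
  rw [mem_lamInf_iff]
  exact forall_congr' fun v => imp_congr_right fun _ => or_iff_right hf

theorem mul_mem_lamFin {x : F} {A B : Divisor K F} {f g : F} (hf : f ∈ lamFin x A)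
    (hg : g ∈ lamFin x B) : f * g ∈ lamFin x (A + B) := by
  intro v hv
  rw [map_mul, Finsupp.add_apply, exp_add]
  exact mul_le_mul' (hf v hv) (hg v hv)

theorem mul_mem_lamInf {x : F} {A B : Divisor K F} {f g : F} (hf : f ∈ lamInf x A)
    (hg : g ∈ lamInf x B) : f * g ∈ lamInf x (A + B) := by
  intro v hv
  rw [map_mul, Finsupp.add_apply, exp_add]
  exact mul_le_mul' (hf v hv) (hg v hv)

theorem mul_mem_riemannRochSpace {A B : Divisor K F} {f g : F} (hf : f ∈ riemannRochSpace A)
    (hg : g ∈ riemannRochSpace B) : f * g ∈ riemannRochSpace (A + B) := by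
  intro v
  rw [map_mul, Finsupp.add_apply, exp_add]
  exact mul_le_mul' (hf v) (hg v)

theorem riemannRochSpace_le_lamFin (x : F) (D : Divisor K F) :
    riemannRochSpace D ≤ lamFin x D := by
  rw [riemannRochSpace_eq_inf x D]; exact inf_le_left

theorem riemannRochSpace_le_lamInf (x : F) (D : Divisor K F) :
    riemannRochSpace D ≤ lamInf x D := by
  rw [riemannRochSpace_eq_inf x D]; exact inf_le_right

/-- a place where `x` is finite does not matter for `lamInf` -/
theorem lamInf_add_single_of_nonneg (x : F) (D : Divisor K F) (v : Place K F)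
    (hv : 0 ≤ v.ord x) (n : ℤ) : lamInf x (D + Finsupp.single v n) = lamInf x D := by
  classical
  ext f
  rw [mem_lamInf_iff, mem_lamInf_iff]
  refine forall_congr' fun w => imp_congr_right fun hw => ?_
  have hwv : v ≠ w := by rintro rfl; omega
  rw [Finsupp.add_apply, Finsupp.single_eq_of_ne' hwv, add_zero]

/-- a pole of `x` does not matter for `lamFin` -/
theorem lamFin_add_single_of_neg (x : F) (D : Divisor K F) (v : Place K F)
    (hv : v.ord x < 0) (n : ℤ) : lamFin x (D + Finsupp.single v n) = lamFin x D := by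
  classical
  ext f
  rw [mem_lamFin_iff, mem_lamFin_iff]
  refine forall_congr' fun w => imp_congr_right fun hw => ?_
  have hwv : v ≠ w := by rintro rfl; omega
  rw [Finsupp.add_apply, Finsupp.single_eq_of_ne' hwv, add_zero]

/-- the "two-chart" first cohomology `F ⧸ (Λ₀(D) + Λ_∞(D))` -/
abbrev H1' (x : F) (D : Divisor K F) : Type _ := F ⧸ (lamFin x D ⊔ lamInf x D)

/-- the Euler characteristic `l(D) - h¹(D)` -/
def chi (x : F) (D : Divisor K F) : ℤ :=
  (Module.finrank K (riemannRochSpace D) : ℤ) - (Module.finrank K (H1' x D) : ℤ)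

variable (K) in
/-- **Interface R3 → R4, R5**: finiteness and the index formula. -/
structure RiemannData (x : F) : Prop where
  finite_L : ∀ D : Divisor K F, Module.Finite K (riemannRochSpace D)
  finite_H1 : ∀ D : Divisor K F, Module.Finite K (H1' x D)
  chi_eq : ∀ D : Divisor K F, chi x D = Divisor.degree D + chi x (0 : Divisor K F)
  l_zero : Module.finrank K (riemannRochSpace (0 : Divisor K F)) = 1
  l_neg : ∀ D : Divisor K F, Divisor.degree D < 0 →
    Module.finrank K (riemannRochSpace D) = 0

end Fermat.Agent.RR
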