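import Mathlib

/-!
# Item 72 (Riemann–Roch), R3b: the abstract index lemma (helper9)

For subspaces `A, B` of a `K`-vector space `V` and `a ∉ A`, replacing `A` by `A ⊔ K∙a`
raises the index `dim (A ⊓ B) - dim (V ⧸ (A ⊔ B))` by one.
-/

set_option autoImplicit false
set_option linter.unusedSectionVars false
set_option linter.style.haveILetI false

open Module Submodule

noncomputable section

namespace Fermat.Agent.RR

variable {K V : Type*} [Field K] [AddCommGroup V] [Module K V]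

/-- the index of a pair of subspaces -/
def pairIndex (A B : Submodule K V) : ℤ :=
  (finrank K ↥(A ⊓ B) : ℤ) - (finrank K (V ⧸ (A ⊔ B)) : ℤ)

theorem pairIndex_comm (A B : Submodule K V) : pairIndex A B = pairIndex B A := by
  unfold pairIndex
  rw [inf_comm, (Submodule.quotEquivOfEq _ _ (sup_comm A B)).finrank_eq]

section Case1

variable (A B : Submodule K V) (a : V) (ha : a ∉ A) (hab : a ∈ A ⊔ B)

include ha hab in
theorem exists_inf_succ_of_mem_sup :
    ∃ b : V, b ∉ A ⊓ B ∧ (A ⊔ K ∙ a) ⊓ B = (A ⊓ B) ⊔ K ∙ b := by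
  obtain ⟨a₀, ha₀, b, hb, hsum⟩ := Submodule.mem_sup.mp hab
  have hbA : b ∉ A := by
    intro h
    apply ha
    rw [← hsum]
    exact A.add_mem ha₀ h
  refine ⟨b, fun h => hbA h.1, le_antisymm ?_ ?_⟩
  · rintro c ⟨hcA', hcB⟩
    obtain ⟨a₁, ha₁, y, hy, rfl⟩ := Submodule.mem_sup.mp hcA'
    obtain ⟨t, rfl⟩ := Submodule.mem_span_singleton.mp hy
    have hdecomp : a₁ + t • a = (a₁ + t • a₀) + t • b := by
      rw [← hsum, smul_add]; abel
    rw [hdecomp]
    refine Submodule.add_mem_sup ⟨A.add_mem ha₁ (A.smul_mem t ha₀), ?_⟩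
      (Submodule.smul_mem _ t (Submodule.mem_span_singleton_self b))
    have : a₁ + t • a₀ = (a₁ + t • a) - t • b := by rw [hdecomp]; abel
    rw [this]
    exact B.sub_mem hcB (B.smul_mem t hb)
  · refine sup_le (inf_le_inf_right B le_sup_left) ?_
    rw [Submodule.span_singleton_le_iff_mem]
    refine ⟨?_, hb⟩
    have : b = -a₀ + a := by rw [← hsum]; abel
    rw [this]
    exact Submodule.add_mem_sup (A.neg_mem ha₀) (Submodule.mem_span_singleton_self a)

end Case1

section Case2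

variable (A B : Submodule K V) (a : V) (hab : a ∉ A ⊔ B)

include hab in
theorem inf_succ_of_notMem_sup : (A ⊔ K ∙ a) ⊓ B = A ⊓ B := by
  refine le_antisymm ?_ (inf_le_inf_right B le_sup_left)
  rintro c ⟨hcA', hcB⟩
  obtain ⟨a₁, ha₁, y, hy, rfl⟩ := Submodule.mem_sup.mp hcA'
  obtain ⟨t, rfl⟩ := Submodule.mem_span_singleton.mp hy
  by_cases ht : t = 0
  · subst ht
    rw [zero_smul, add_zero] at hcB ⊢
    exact ⟨ha₁, hcB⟩
  · exfalso
    apply hab
    have : a = t⁻¹ • (-a₁) + t⁻¹ • (a₁ + t • a) := by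
      rw [← smul_add, neg_add_cancel_left, smul_smul, inv_mul_cancel₀ ht, one_smul]
    rw [this]
    exact Submodule.add_mem_sup (A.smul_mem _ (A.neg_mem ha₁)) (B.smul_mem _ hcB)

end Case2

/-- finiteness of the intersection goes up -/
theorem finite_inf_succ (A B : Submodule K V) (a : V) [Module.Finite K ↥(A ⊓ B)] :
    Module.Finite K ↥((A ⊔ K ∙ a) ⊓ B) := by
  by_cases ha : a ∈ A
  · have : A ⊔ K ∙ a = A := sup_eq_left.mpr ((Submodule.span_singleton_le_iff_mem a A).mpr ha)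
    rw [this]; infer_instance
  by_cases hab : a ∈ A ⊔ B
  · obtain ⟨b, -, h⟩ := exists_inf_succ_of_mem_sup A B a ha hab
    rw [h]
    infer_instance
  · rw [inf_succ_of_notMem_sup A B a hab]
    infer_instance

/-- finiteness of the quotient goes down -/
theorem finite_quotient_of_succ (A B : Submodule K V) (a : V)
    [Module.Finite K (V ⧸ ((A ⊔ K ∙ a) ⊔ B))] : Module.Finite K (V ⧸ (A ⊔ B)) := by
  have e : (A ⊔ K ∙ a) ⊔ B = (A ⊔ B) ⊔ K ∙ a := by
    rw [sup_assoc, sup_comm (K ∙ a) B, ← sup_assoc]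
  let N : Submodule K (V ⧸ (A ⊔ B)) := (K ∙ a).map (A ⊔ B).mkQ
  haveI : Module.Finite K ↥N := by
    show Module.Finite K ↥((K ∙ a).map (A ⊔ B).mkQ)
    infer_instance
  haveI : Module.Finite K ((V ⧸ (A ⊔ B)) ⧸ N) :=
    Module.Finite.equiv
      ((Submodule.quotEquivOfEq _ _ e).trans
        (Submodule.quotientQuotientEquivQuotientSup (A ⊔ B) (K ∙ a)).symm)
  exact Module.Finite.of_submodule_quotient N

/-- **Index lemma**: adding one dimension to `A` raises the index by one. -/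
theorem pairIndex_succ (A B : Submodule K V) (a : V) (ha : a ∉ A)
    [Module.Finite K ↥(A ⊓ B)] [Module.Finite K (V ⧸ (A ⊔ B))] :
    pairIndex (A ⊔ K ∙ a) B = pairIndex A B + 1 := by
  have e : (A ⊔ K ∙ a) ⊔ B = (A ⊔ B) ⊔ K ∙ a := by
    rw [sup_assoc, sup_comm (K ∙ a) B, ← sup_assoc]
  unfold pairIndex
  by_cases hab : a ∈ A ⊔ B
  · obtain ⟨b, hb, h⟩ := exists_inf_succ_of_mem_sup A B a ha hab
    have hsup : (A ⊔ K ∙ a) ⊔ B = A ⊔ B := by
      rw [e]
      exact sup_eq_left.mpr ((Submodule.span_singleton_le_iff_mem a _).mpr hab)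
    have hb0 : b ≠ 0 := fun h0 => hb (h0 ▸ Submodule.zero_mem _)
    have hdisj : (A ⊓ B) ⊓ K ∙ b = ⊥ := by
      rw [eq_bot_iff]
      rintro c ⟨hc1, hc2⟩
      obtain ⟨t, rfl⟩ := Submodule.mem_span_singleton.mp hc2
      by_cases ht : t = 0
      · simp [ht]
      · exfalso
        apply hb
        have : b = t⁻¹ • (t • b) := by rw [smul_smul, inv_mul_cancel₀ ht, one_smul]
        rw [this]
        exact Submodule.smul_mem _ _ hc1
    have h1 := Submodule.finrank_sup_add_finrank_inf_eq (A ⊓ B) (K ∙ b)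
    rw [hdisj, finrank_bot, add_zero, finrank_span_singleton hb0] at h1
    rw [h, h1, (Submodule.quotEquivOfEq _ _ hsup).finrank_eq]
    push_cast
    ring
  · rw [inf_succ_of_notMem_sup A B a hab]
    let N : Submodule K (V ⧸ (A ⊔ B)) := (K ∙ a).map (A ⊔ B).mkQ
    have hN : N = K ∙ ((A ⊔ B).mkQ a) := by
      show (K ∙ a).map (A ⊔ B).mkQ = _
      rw [Submodule.map_span, Set.image_singleton]
    have hne : (A ⊔ B).mkQ a ≠ 0 := by
      rw [Submodule.mkQ_apply, Ne, Submodule.Quotient.mk_eq_zero]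
      exact hab
    have h1 := Submodule.finrank_quotient_add_finrank N
    have h2 : finrank K ↥N = 1 := by rw [hN]; exact finrank_span_singleton hne
    have h3 : finrank K ((V ⧸ (A ⊔ B)) ⧸ N) = finrank K (V ⧸ ((A ⊔ K ∙ a) ⊔ B)) :=
      ((Submodule.quotEquivOfEq _ _ e).trans
        (Submodule.quotientQuotientEquivQuotientSup (A ⊔ B) (K ∙ a)).symm).symm.finrank_eq
    rw [h2, h3] at h1
    have h4 : (finrank K (V ⧸ (A ⊔ B)) : ℤ) = (finrank K (V ⧸ ((A ⊔ K ∙ a) ⊔ B)) : ℤ) + 1 := by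
      exact_mod_cast h1.symm
    rw [h4]
    ring

end Fermat.Agent.RR
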