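import Mathlib
import Fermat.Agent.RR.Defs
import Fermat.Agent.RR.AIndex
import Fermat.Agent.RR.AFredholm
import Fermat.Agent.FF.AFibres
import Fermat.Agent.FF.ASeparation
import Fermat.Agent.FF.AFinite
import Fermat.Agent.FF.ARH

/-!
# Item 72 (Riemann–Roch), R3b (helper9): finiteness and the index formula

* `aeval_mem_valuationSubring`, `ord_aeval_of_neg` : orders of polynomials in `x`;
* `exists_polynomial_add` : `K(x) = K[x] + O_∞`;
* `exists_sup_eq_top` : `Λ₀(D₀) + Λ_∞(D₀) = F` for some `D₀`;
* `riemannRochSpace_zero`, `finrank_riemannRochSpace_zero`, `riemannRochSpace_eq_bot_of_degree_neg`;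
* `riemannData_of_steps` : `RiemannData K x` from the codimension-one steps (R3a).
-/

set_option autoImplicit false
set_option linter.unusedSectionVars false
set_option linter.style.haveILetI false

open AlgebraicCurve Polynomial IntermediateField Module Fermat.Agent.FF

noncomputable section

namespace Fermat.Agent.RR

variable {K F : Type*} [Field K] [Field F] [Algebra K F]

section PolyOrd

/-- polynomials in `x` are integral at the places where `x` is -/
theorem aeval_mem_valuationSubring (v : Place K F) {x : F} (hx : x ∈ v.toValuationSubring)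
    (p : K[X]) : aeval x p ∈ v.toValuationSubring := by
  induction p using Polynomial.induction_on' with
  | add p q hp hq => rw [map_add]; exact add_mem hp hq
  | monomial n a =>
    rw [aeval_monomial]
    exact mul_mem (v.algebraMap_mem' a) (pow_mem hx n)

/-- a polynomial in `y` with nonzero constant term is a unit at the zeros of `y` -/
theorem ord_aeval_eq_zero_of_pos (v : Place K F) {y : F} (hy : 0 < v.ord y) (q : K[X])
    (hq : q.coeff 0 ≠ 0) : v.ord (aeval y q) = 0 := by
  have hy0 : y ≠ 0 := by
    rintro rfl
    rw [v.ord_zero] at hy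
    omega
  have hymem : y ∈ v.toValuationSubring := mem_of_ord_nonneg v hy0 hy.le
  -- q = divX q * X + C (q.coeff 0)
  have hdecomp : aeval y q = aeval y q.divX * y + algebraMap K F (q.coeff 0) := by
    conv_lhs => rw [← Polynomial.divX_mul_X_add q]
    simp
  have hc : v.ord (algebraMap K F (q.coeff 0)) = 0 := ord_algebraMap v _
  have hc0 : algebraMap K F (q.coeff 0) ≠ 0 := (_root_.map_ne_zero _).mpr hq
  by_cases h1 : aeval y q.divX * y = 0
  · rw [hdecomp, h1, zero_add, hc]
  have hd0 : aeval y q.divX ≠ 0 := left_ne_zero_of_mul h1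
  have h2 : 0 < v.ord (aeval y q.divX * y) := by
    rw [v.ord_mul hd0 hy0]
    have := ord_nonneg_of_mem v (aeval_mem_valuationSubring v hymem q.divX)
    omega
  have hsum0 : aeval y q.divX * y + algebraMap K F (q.coeff 0) ≠ 0 := by
    intro h0
    have : aeval y q.divX * y = -algebraMap K F (q.coeff 0) := eq_neg_of_add_eq_zero_left h0
    rw [this, ord_neg, hc] at h2
    omega
  have h3 := ord_add_ge_min v h1 hc0 hsum0
  rw [hc] at h3
  have h4 : 0 ≤ v.ord (aeval y q.divX * y + algebraMap K F (q.coeff 0)) := by
    rcases min_le_iff.mp h3 with h | h <;> omega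
  -- reverse inequality: c = (sum) + (-(first))
  have hneg0 : -(aeval y q.divX * y) ≠ 0 := neg_ne_zero.mpr h1
  have h5 := ord_add_ge_min v hsum0 hneg0 (by
    rw [add_neg_cancel_comm]; exact hc0)
  rw [add_neg_cancel_comm, hc, ord_neg] at h5
  rw [hdecomp]
  rcases min_le_iff.mp h5 with h | h <;> omega

/-- the order of a polynomial in `x` at a pole of `x` -/
theorem ord_aeval_of_neg (v : Place K F) {x : F} (hx : v.ord x < 0) (p : K[X]) (hp : p ≠ 0) :
    v.ord (aeval x p) = p.natDegree * v.ord x := by
  have hx0 : x ≠ 0 := by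
    rintro rfl
    rw [v.ord_zero] at hx
    omega
  have h1 : aeval x p = aeval x⁻¹ p.reverse * x ^ p.natDegree := by
    letI : Invertible x := invertibleOfNonzero hx0
    have := Polynomial.eval₂_reverse_mul_pow (algebraMap K F) x p
    rw [invOf_eq_inv] at this
    rw [Polynomial.aeval_def, Polynomial.aeval_def]
    exact this.symm
  have h2 : v.ord (aeval x⁻¹ p.reverse) = 0 := by
    refine ord_aeval_eq_zero_of_pos v (by rw [v.ord_inv]; omega) _ ?_
    rw [Polynomial.coeff_zero_reverse]
    exact Polynomial.leadingCoeff_ne_zero.mpr hp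
  have h3 : aeval x⁻¹ p.reverse ≠ 0 := by
    intro h0
    have hc : (p.reverse).coeff 0 ≠ 0 := by
      rw [Polynomial.coeff_zero_reverse]
      exact Polynomial.leadingCoeff_ne_zero.mpr hp
    -- order zero and value zero are compatible, so argue via the product
    have hdecomp : aeval x⁻¹ p.reverse =
        aeval x⁻¹ p.reverse.divX * x⁻¹ + algebraMap K F (p.reverse.coeff 0) := by
      conv_lhs => rw [← Polynomial.divX_mul_X_add p.reverse]
      simp
    rw [h0] at hdecomp
    have h4 : aeval x⁻¹ p.reverse.divX * x⁻¹ = -algebraMap K F (p.reverse.coeff 0) :=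
      eq_neg_of_add_eq_zero_left hdecomp.symm
    have hxi : 0 < v.ord x⁻¹ := by rw [v.ord_inv]; omega
    have hximem : x⁻¹ ∈ v.toValuationSubring := mem_of_ord_nonneg v (inv_ne_zero hx0) hxi.le
    have hd0 : aeval x⁻¹ p.reverse.divX ≠ 0 := by
      intro hd
      rw [hd, zero_mul] at h4
      exact (_root_.map_ne_zero (algebraMap K F)).mpr hc (neg_eq_zero.mp h4.symm)
    have h5 := congrArg v.ord h4
    rw [v.ord_mul hd0 (inv_ne_zero hx0), ord_neg, ord_algebraMap] at h5
    have := ord_nonneg_of_mem v (aeval_mem_valuationSubring v hximem p.reverse.divX)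
    omega
  rw [h1, v.ord_mul h3 (pow_ne_zero _ hx0), h2, zero_add, ← zpow_natCast, v.ord_zpow]

end PolyOrd

section Decomp

variable [IsAlgClosed K] [CharZero K]
variable (x : F) (hx : Transcendental K x) [FiniteDimensional K⟮x⟯ F]

include hx

/-- `K(x) = K[x] + O_∞` -/
theorem exists_polynomial_add (c : K⟮x⟯) :
    ∃ (p : K[X]) (r : F), (c : F) = aeval x p + r ∧
      ∀ v : Place K F, v.ord x < 0 → 0 ≤ v.ord r := by
  obtain ⟨a, q, hc⟩ := (mem_adjoin_simple_iff K (c : F)).mp c.2
  by_cases hq : q = 0
  · refine ⟨0, 0, ?_, fun v _ => by simp⟩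
    rw [hc, hq]
    simp
  have hq' : aeval x q ≠ 0 := fun h0 => hq ((transcendental_iff.mp hx) q h0)
  refine ⟨a / q, aeval x (a % q) / aeval x q, ?_, fun v hv => ?_⟩
  · rw [hc, div_eq_iff hq', add_mul, div_mul_cancel₀ _ hq', ← map_mul, ← map_add]
    congr 1
    rw [mul_comm]
    exact (EuclideanDomain.div_add_mod a q).symm
  · by_cases hm : a % q = 0
    · rw [hm]; simp
    have hm' : aeval x (a % q) ≠ 0 := fun h0 => hm ((transcendental_iff.mp hx) _ h0)
    rw [div_eq_mul_inv, v.ord_mul hm' (inv_ne_zero hq'), v.ord_inv,
      ord_aeval_of_neg v hv _ hm, ord_aeval_of_neg v hv _ hq]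
    have hdeg : (a % q).natDegree ≤ q.natDegree :=
      Polynomial.natDegree_le_natDegree (Polynomial.degree_mod_lt a hq).le
    have : ((a % q).natDegree : ℤ) ≤ (q.natDegree : ℤ) := by exact_mod_cast hdeg
    nlinarith

/-- the pole divisor of `b` -/
def poleDiv (b : F) : Divisor K F :=
  Finsupp.ofSupportFinite (fun v : Place K F => max (-v.ord b) 0)
    ((ord_support_finite x hx b).subset fun v hv => by
      simp only [Function.mem_support, ne_eq] at hv
      simp only [Set.mem_ofPred_eq]
      intro h0
      apply hv
      rw [h0]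
      simp)

theorem poleDiv_apply (b : F) (v : Place K F) : poleDiv x hx b v = max (-v.ord b) 0 := rfl

theorem poleDiv_nonneg (b : F) (v : Place K F) : 0 ≤ poleDiv x hx b v := le_max_right _ _

theorem neg_ord_le_poleDiv (b : F) (v : Place K F) : -v.ord b ≤ poleDiv x hx b v :=
  le_max_left _ _

/-- **Strong approximation, weak form**: `Λ₀(D₀) + Λ_∞(D₀) = F` for some `D₀`. -/
theorem exists_sup_eq_top : ∃ D₀ : Divisor K F, lamFin x D₀ ⊔ lamInf x D₀ = ⊤ := by
  classical
  have hx0 : x ≠ 0 := ne_zero_of_transcendental x hx
  let bs := Module.finBasis K⟮x⟯ F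
  let D₀ : Divisor K F := ∑ i, poleDiv x hx (bs i)
  have hD₀ : ∀ i v, -v.ord (bs i) ≤ D₀ v := by
    intro i v
    refine (neg_ord_le_poleDiv x hx (bs i) v).trans ?_
    show poleDiv x hx (bs i) v ≤ (∑ j, poleDiv x hx (bs j)) v
    rw [Finsupp.finsetSum_apply]
    exact Finset.single_le_sum (f := fun j => poleDiv x hx (bs j) v)
      (fun j _ => poleDiv_nonneg x hx (bs j) v) (Finset.mem_univ i)
  refine ⟨D₀, eq_top_iff.mpr fun f _ => ?_⟩
  rw [← bs.sum_repr f]
  refine Submodule.sum_mem _ fun i _ => ?_
  obtain ⟨p, r, hc, hr⟩ := exists_polynomial_add x hx (bs.repr f i)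
  have hsmul : (bs.repr f i) • bs i = aeval x p * bs i + r * bs i := by
    rw [IntermediateField.smul_def, smul_eq_mul, hc, add_mul]
  rw [hsmul]
  refine Submodule.add_mem_sup ?_ ?_
  · rw [mem_lamFin_iff]
    intro v hv
    by_cases h0 : aeval x p * bs i = 0
    · exact Or.inl h0
    right
    have hp0 : aeval x p ≠ 0 := left_ne_zero_of_mul h0
    have hb0 : bs i ≠ 0 := right_ne_zero_of_mul h0
    rw [v.ord_mul hp0 hb0]
    have h1 := ord_nonneg_of_mem v (aeval_mem_valuationSubring v (mem_of_ord_nonneg v hx0 hv) p)
    have h2 := hD₀ i v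
    omega
  · rw [mem_lamInf_iff]
    intro v hv
    by_cases h0 : r * bs i = 0
    · exact Or.inl h0
    right
    have hr0 : r ≠ 0 := left_ne_zero_of_mul h0
    have hb0 : bs i ≠ 0 := right_ne_zero_of_mul h0
    rw [v.ord_mul hr0 hb0]
    have h1 := hr v hv
    have h2 := hD₀ i v
    omega

end Decomp

section Basic

variable [IsAlgClosed K] [CharZero K]
variable (x : F) (hx : Transcendental K x) [FiniteDimensional K⟮x⟯ F]

include hx

/-- functions without poles are constant -/
theorem riemannRochSpace_zero : riemannRochSpace (0 : Divisor K F) = K ∙ (1 : F) := by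
  ext f
  rw [mem_riemannRochSpace_iff, Submodule.mem_span_singleton]
  constructor
  · intro h
    by_cases hf : IsAlgebraic K f
    · obtain ⟨c, rfl⟩ := exists_algebraMap_eq_of_isAlgebraic hf
      exact ⟨c, by rw [Algebra.smul_def, mul_one]⟩
    · exfalso
      haveI := finiteDimensional_of_transcendental x hx f hf
      obtain ⟨v, hv⟩ := placesOverInf_nonempty (K := K) f hf
      have hv' : v.ord f < 0 := hv
      rcases h v with h0 | h0
      · rw [h0, v.ord_zero] at hv'; omega
      · simp only [Finsupp.coe_zero, Pi.zero_apply, neg_zero] at h0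
        omega
  · rintro ⟨c, rfl⟩ v
    right
    rw [Algebra.smul_def, mul_one, ord_algebraMap]
    simp

theorem finrank_riemannRochSpace_zero :
    finrank K (riemannRochSpace (0 : Divisor K F)) = 1 := by
  rw [riemannRochSpace_zero x hx]
  exact finrank_span_singleton one_ne_zero

theorem degree_eq_sum (D : Divisor K F) (T : Finset (Place K F)) (hT : D.support ⊆ T) :
    Divisor.degree D = ∑ v ∈ T, D v := by
  have hdeg : Divisor.degree D = ∑ v ∈ D.support, D v := by
    unfold Divisor.degree
    rw [Finsupp.liftAddHom_apply, Finsupp.sum]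
    refine Finset.sum_congr rfl fun v _ => ?_
    rw [AddMonoidHom.coe_mulRight, place_deg_eq_one x hx v]
    simp
  rw [hdeg]
  exact Finset.sum_subset hT fun v _ hv => Finsupp.notMem_support_iff.mp hv

/-- `L(D) = 0` if `deg D < 0` -/
theorem riemannRochSpace_eq_bot_of_degree_neg (D : Divisor K F) (hD : Divisor.degree D < 0) :
    riemannRochSpace D = ⊥ := by
  classical
  rw [eq_bot_iff]
  intro f hf
  rw [Submodule.mem_bot]
  by_contra hf0
  rw [mem_riemannRochSpace_iff] at hf
  set T : Finset (Place K F) := D.support ∪ (ord_support_finite x hx f).toFinset with hT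
  have h1 := sum_ord_eq_zero x hx f T fun v hv =>
    Finset.mem_union_right _ ((Set.Finite.mem_toFinset _).mpr hv)
  have h2 := degree_eq_sum x hx D T Finset.subset_union_left
  have h3 : ∑ v ∈ T, (-D v) ≤ ∑ v ∈ T, v.ord f :=
    Finset.sum_le_sum fun v _ => (hf v).resolve_left hf0
  rw [Finset.sum_neg_distrib, ← h2, h1] at h3
  omega

theorem finrank_riemannRochSpace_of_degree_neg (D : Divisor K F) (hD : Divisor.degree D < 0) :
    finrank K (riemannRochSpace D) = 0 := by
  rw [riemannRochSpace_eq_bot_of_degree_neg x hx D hD]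
  exact finrank_bot K F

theorem degree_add_single (D : Divisor K F) (v : Place K F) (n : ℤ) :
    Divisor.degree (D + Finsupp.single v n) = Divisor.degree D + n := by
  rw [map_add, Divisor.degree_single, place_deg_eq_one x hx v]
  simp

end Basic

section Induction

/-- induction principle for divisors: steps `± v` from a base point -/
theorem divisor_induction {P : Divisor K F → Prop} (D₀ : Divisor K F) (h0 : P D₀)
    (hup : ∀ D v, P D → P (D + Finsupp.single v 1))
    (hdown : ∀ D v, P (D + Finsupp.single v 1) → P D) : ∀ D, P D := by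
  classical
  have key : ∀ E : Divisor K F, P (D₀ + E) := by
    intro E
    induction E using Finsupp.induction with
    | zero => simpa using h0
    | single_add v n E _ _ ih =>
      have hn : ∀ n : ℤ, P (D₀ + (Finsupp.single v n + E)) := by
        intro n
        induction n using Int.induction_on with
        | zero => simpa using ih
        | succ k ihk =>
          have := hup _ v ihk
          have e : D₀ + (Finsupp.single v (k : ℤ) + E) + Finsupp.single v 1 =
              D₀ + (Finsupp.single v ((k : ℤ) + 1) + E) := by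
            rw [Finsupp.single_add]; abel
          rwa [e] at this
        | pred k ihk =>
          apply hdown _ v
          have e : D₀ + (Finsupp.single v (-(k : ℤ) - 1) + E) + Finsupp.single v 1 =
              D₀ + (Finsupp.single v (-(k : ℤ)) + E) := by
            rw [show (-(k : ℤ)) = (-(k : ℤ) - 1) + 1 by ring, Finsupp.single_add]
            simp only [sub_add_cancel]
            abel
          rwa [e]
      exact hn n
  intro D
  have := key (D - D₀)
  rwa [add_sub_cancel] at this

end Induction

section Assembly

variable [IsAlgClosed K] [CharZero K]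
variable (x : F) (hx : Transcendental K x) [FiniteDimensional K⟮x⟯ F]

theorem chi_eq_pairIndex (D : Divisor K F) :
    chi x D = pairIndex (lamFin x D) (lamInf x D) := by
  unfold chi pairIndex
  rw [riemannRochSpace_eq_inf x D]

theorem finite_inf_of_finite_L (D : Divisor K F) (h : Module.Finite K (riemannRochSpace D)) :
    Module.Finite K ↥(lamFin x D ⊓ lamInf x D) := by
  rw [← riemannRochSpace_eq_inf x D]; exact h

/-- the two kinds of steps, in a uniform way -/
theorem step_cases (hFin : ∀ (D : Divisor K F) (v : Place K F), 0 ≤ v.ord x →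
      ∃ a : F, a ∉ lamFin x D ∧
        lamFin x (D + Finsupp.single v 1) = lamFin x D ⊔ Submodule.span K {a})
    (hInf : ∀ (D : Divisor K F) (v : Place K F), v.ord x < 0 →
      ∃ a : F, a ∉ lamInf x D ∧
        lamInf x (D + Finsupp.single v 1) = lamInf x D ⊔ Submodule.span K {a})
    (D : Divisor K F) (v : Place K F) :
    (∃ a : F, a ∉ lamFin x D ∧
        lamFin x (D + Finsupp.single v 1) = lamFin x D ⊔ Submodule.span K {a} ∧
        lamInf x (D + Finsupp.single v 1) = lamInf x D) ∨
    (∃ a : F, a ∉ lamInf x D ∧
        lamInf x (D + Finsupp.single v 1) = lamInf x D ⊔ Submodule.span K {a} ∧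
        lamFin x (D + Finsupp.single v 1) = lamFin x D) := by
  rcases le_or_gt 0 (v.ord x) with hv | hv
  · obtain ⟨a, ha, h⟩ := hFin D v hv
    exact Or.inl ⟨a, ha, h, lamInf_add_single_of_nonneg x D v hv 1⟩
  · obtain ⟨a, ha, h⟩ := hInf D v hv
    exact Or.inr ⟨a, ha, h, lamFin_add_single_of_neg x D v hv 1⟩

include hx in
/-- **R3**: `RiemannData` from the codimension-one steps. -/
theorem riemannData_of_steps
    (hFin : ∀ (D : Divisor K F) (v : Place K F), 0 ≤ v.ord x →
      ∃ a : F, a ∉ lamFin x D ∧
        lamFin x (D + Finsupp.single v 1) = lamFin x D ⊔ Submodule.span K {a})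
    (hInf : ∀ (D : Divisor K F) (v : Place K F), v.ord x < 0 →
      ∃ a : F, a ∉ lamInf x D ∧
        lamInf x (D + Finsupp.single v 1) = lamInf x D ⊔ Submodule.span K {a}) :
    RiemannData K x := by
  -- finiteness of `L(D)`
  have hL : ∀ D : Divisor K F, Module.Finite K (riemannRochSpace D) := by
    refine divisor_induction (P := fun D => Module.Finite K (riemannRochSpace D)) 0 ?_ ?_ ?_
    · rw [riemannRochSpace_zero x hx]
      infer_instance
    · intro D v hD
      haveI := finite_inf_of_finite_L x D hD
      rw [riemannRochSpace_eq_inf x]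
      rcases step_cases x hFin hInf D v with ⟨a, -, h1, h2⟩ | ⟨a, -, h1, h2⟩
      · rw [h1, h2]
        exact finite_inf_succ _ _ a
      · rw [h1, h2, inf_comm]
        haveI : Module.Finite K ↥(lamInf x D ⊓ lamFin x D) := by
          rw [inf_comm]; infer_instance
        exact finite_inf_succ _ _ a
    · intro D v hD
      haveI := hD
      have hle : riemannRochSpace D ≤ riemannRochSpace (D + Finsupp.single v 1) := by
        intro f hf w
        refine (hf w).trans (WithZero.exp_le_exp.mpr ?_)
        rw [Finsupp.add_apply]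
        have : (0 : ℤ) ≤ (Finsupp.single v (1 : ℤ)) w := by
          classical
          rw [Finsupp.single_apply]
          split_ifs <;> simp
        omega
      exact Submodule.finiteDimensional_of_le hle
  obtain ⟨D₀, hD₀⟩ := exists_sup_eq_top x hx
  -- finiteness of `H1'` and the index formula
  have hQ : ∀ D : Divisor K F, Module.Finite K (H1' x D) ∧
      chi x D - Divisor.degree D = chi x D₀ - Divisor.degree D₀ := by
    refine divisor_induction (P := fun D => Module.Finite K (H1' x D) ∧
      chi x D - Divisor.degree D = chi x D₀ - Divisor.degree D₀) D₀ ?_ ?_ ?_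
    · refine ⟨?_, rfl⟩
      show Module.Finite K (F ⧸ (lamFin x D₀ ⊔ lamInf x D₀))
      rw [hD₀]
      infer_instance
    · rintro D v ⟨hfin, hchi⟩
      haveI : Module.Finite K (F ⧸ (lamFin x D ⊔ lamInf x D)) := hfin
      haveI := finite_inf_of_finite_L x D (hL D)
      rw [chi_eq_pairIndex] at hchi ⊢
      rw [degree_add_single x hx]
      rcases step_cases x hFin hInf D v with ⟨a, ha, h1, h2⟩ | ⟨a, ha, h1, h2⟩
      · refine ⟨?_, ?_⟩
        · show Module.Finite K (F ⧸ (lamFin x (D + Finsupp.single v 1) ⊔
            lamInf x (D + Finsupp.single v 1)))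
          rw [h1, h2]
          exact Module.Finite.of_surjective
            (Submodule.factor (sup_le_sup_right le_sup_left _))
            (Submodule.factor_surjective _)
        · rw [h1, h2, pairIndex_succ _ _ a ha]
          linarith
      · haveI : Module.Finite K ↥(lamInf x D ⊓ lamFin x D) := by
          rw [inf_comm]; infer_instance
        haveI : Module.Finite K (F ⧸ (lamInf x D ⊔ lamFin x D)) := by
          rw [sup_comm]; infer_instance
        refine ⟨?_, ?_⟩
        · show Module.Finite K (F ⧸ (lamFin x (D + Finsupp.single v 1) ⊔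
            lamInf x (D + Finsupp.single v 1)))
          rw [h1, h2]
          exact Module.Finite.of_surjective
            (Submodule.factor (sup_le_sup_left le_sup_left _))
            (Submodule.factor_surjective _)
        · rw [h1, h2, pairIndex_comm, pairIndex_succ _ _ a ha, pairIndex_comm]
          linarith
    · rintro D v ⟨hfin, hchi⟩
      haveI := finite_inf_of_finite_L x D (hL D)
      rw [chi_eq_pairIndex] at hchi ⊢
      rw [degree_add_single x hx] at hchi
      rcases step_cases x hFin hInf D v with ⟨a, ha, h1, h2⟩ | ⟨a, ha, h1, h2⟩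
      · rw [h1, h2] at hchi
        haveI : Module.Finite K (F ⧸ ((lamFin x D ⊔ Submodule.span K {a}) ⊔ lamInf x D)) := by
          have := hfin
          show Module.Finite K (F ⧸ ((lamFin x D ⊔ Submodule.span K {a}) ⊔ lamInf x D))
          rw [← h1, ← h2]
          exact this
        haveI : Module.Finite K (F ⧸ (lamFin x D ⊔ lamInf x D)) :=
          finite_quotient_of_succ _ _ a
        refine ⟨inferInstance, ?_⟩
        rw [pairIndex_succ _ _ a ha] at hchi
        linarith
      · rw [h1, h2, pairIndex_comm] at hchi
        haveI : Module.Finite K ↥(lamInf x D ⊓ lamFin x D) := by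
          rw [inf_comm]; infer_instance
        haveI : Module.Finite K (F ⧸ ((lamInf x D ⊔ Submodule.span K {a}) ⊔ lamFin x D)) := by
          have := hfin
          show Module.Finite K (F ⧸ ((lamInf x D ⊔ Submodule.span K {a}) ⊔ lamFin x D))
          rw [← h1, ← h2, sup_comm]
          exact this
        haveI : Module.Finite K (F ⧸ (lamInf x D ⊔ lamFin x D)) :=
          finite_quotient_of_succ _ _ a
        haveI : Module.Finite K (F ⧸ (lamFin x D ⊔ lamInf x D)) := by
          rw [sup_comm]; infer_instance
        refine ⟨inferInstance, ?_⟩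
        rw [pairIndex_succ _ _ a ha, pairIndex_comm] at hchi
        linarith
  refine ⟨hL, fun D => (hQ D).1, fun D => ?_, finrank_riemannRochSpace_zero x hx,
    fun D hD => finrank_riemannRochSpace_of_degree_neg x hx D hD⟩
  have h1 := (hQ D).2
  have h2 := (hQ 0).2
  rw [map_zero, sub_zero] at h2
  linarith

end Assembly

end Fermat.Agent.RR
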