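import Mathlib
import Fermat.Agent.RR.Defs
import Fermat.Agent.RR.AIndex
import Fermat.Agent.FF.AFibres
import Fermat.Agent.FF.ASeparation
import Fermat.Agent.FF.Separation
import Fermat.Agent.FF.ARH

/-!
# Item 72 (Riemann–Roch), R3a (helper9): the codimension-one steps

`lamFin x (D + v) = lamFin x D ⊔ K∙a` with `a ∉ lamFin x D` for a place `v` where `x` is finite,
and the same for `lamInf` at the poles of `x`.
-/

set_option autoImplicit false
set_option linter.unusedSectionVars false
set_option linter.style.haveILetI false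

open AlgebraicCurve Polynomial IntermediateField Module Fermat.Agent.FF

noncomputable section

namespace Fermat.Agent.RR

variable {K F : Type*} [Field K] [Field F] [Algebra K F]

section WeakApprox

theorem ord_prod (v : Place K F) {ι : Type*} (T : Finset ι) (f : ι → F)
    (hf : ∀ i ∈ T, f i ≠ 0) : v.ord (∏ i ∈ T, f i) = ∑ i ∈ T, v.ord (f i) := by
  classical
  induction T using Finset.induction_on with
  | empty => simp
  | insert i T hi ih =>
    rw [Finset.prod_insert hi, Finset.sum_insert hi,
      v.ord_mul (hf i (Finset.mem_insert_self i T))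
        (Finset.prod_ne_zero_iff.mpr fun j hj => hf j (Finset.mem_insert_of_mem hj)),
      ih fun j hj => hf j (Finset.mem_insert_of_mem hj)]

/-- weak approximation with one exact order -/
theorem exists_ord_eq_and_forall_le (v : Place K F) (s : Finset (Place K F)) (hv : v ∉ s)
    (n : ℤ) (m : Place K F → ℤ) :
    ∃ a : F, a ≠ 0 ∧ v.ord a = n ∧ ∀ u ∈ s, m u ≤ u.ord a := by
  classical
  obtain ⟨π, hπ⟩ := IsDiscreteValuationRing.exists_irreducible v.toValuationSubring
  have ht : v.ord (π : F) = 1 := v.ord_coe_irreducible hπ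
  have ht0 : (π : F) ≠ 0 := by
    intro h
    rw [h, v.ord_zero] at ht
    omega
  obtain ⟨z, hz0, hzv, hzs⟩ := H6.exists_pos_forall_neg v s hv
  set M : ℕ := 1 + ∑ u ∈ s, (m u - n * u.ord (π : F)).toNat with hM
  have hM1 : (1 : ℤ) ≤ (M : ℤ) := by
    have : 1 ≤ M := by rw [hM]; exact Nat.le_add_right 1 _
    exact_mod_cast this
  have hzM0 : z ^ M ≠ 0 := pow_ne_zero _ hz0
  have hvzM : 0 < v.ord (z ^ M) := by
    rw [H6.ord_pow']
    nlinarith
  obtain ⟨hne, hv1⟩ := H6.ord_add_eq_of_lt v one_ne_zero hzM0 (by rw [v.ord_one]; exact hvzM)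
  rw [v.ord_one] at hv1
  refine ⟨(π : F) ^ n / (1 + z ^ M), div_ne_zero (zpow_ne_zero _ ht0) hne, ?_, fun u hu => ?_⟩
  · rw [H6.ord_div' v (zpow_ne_zero _ ht0) hne, v.ord_zpow, ht, hv1]
    ring
  · have huz : u.ord z < 0 := hzs u hu
    have huzM : u.ord (z ^ M) < 0 := by
      rw [H6.ord_pow']
      nlinarith
    obtain ⟨-, hu1⟩ := H6.ord_add_eq_of_gt u one_ne_zero hzM0 (by rw [u.ord_one]; exact huzM)
    rw [H6.ord_div' u (zpow_ne_zero _ ht0) hne, u.ord_zpow, hu1, H6.ord_pow']
    have h1 : (m u - n * u.ord (π : F)).toNat ≤ ∑ w ∈ s, (m w - n * w.ord (π : F)).toNat :=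
      Finset.single_le_sum (f := fun w => (m w - n * w.ord (π : F)).toNat)
        (fun w _ => Nat.zero_le _) hu
    have h2 : m u - n * u.ord (π : F) ≤ ((m u - n * u.ord (π : F)).toNat : ℤ) :=
      Int.self_le_toNat _
    have h3 : ((m u - n * u.ord (π : F)).toNat : ℤ) ≤ (M : ℤ) := by
      have : (m u - n * u.ord (π : F)).toNat ≤ M := by rw [hM]; omega
      exact_mod_cast this
    have h4 : (M : ℤ) ≤ -((M : ℤ) * u.ord z) := by nlinarith
    omega

end WeakApprox

section Residue

variable [IsAlgClosed K] [CharZero K]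
variable (x : F) (hx : Transcendental K x) [FiniteDimensional K⟮x⟯ F]

include hx

/-- the residue field of every place is `K` -/
theorem residue_surjective (v : Place K F) :
    Function.Surjective (algebraMap K v.ResidueField) := by
  rcases v.toValuationSubring.mem_or_inv_mem x with h | h
  · exact ctx_elim x hx fun hgen _ => residue_surjective_ctx (K := K) (F := F) v (hgen ▸ h)
  · haveI := finiteDimensional_congr_intermediateField
      (adjoin_simple_inv_eq (K := K) x).symm inferInstance
    exact ctx_elim x⁻¹ (transcendental_inv hx) fun hgen _ =>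
      residue_surjective_ctx (K := K) (F := F) v (hgen ▸ h)

/-- nonzero elements of the maximal ideal have positive order -/
theorem ord_pos_of_mem_maximalIdeal (v : Place K F) (y : v.toValuationSubring)
    (hy : y ∈ IsLocalRing.maximalIdeal v.toValuationSubring) (hy0 : y ≠ 0) :
    0 < v.ord (y : F) := by
  obtain ⟨π, hπ⟩ := IsDiscreteValuationRing.exists_irreducible v.toValuationSubring
  rw [hπ.maximalIdeal_eq, Ideal.mem_span_singleton'] at hy
  obtain ⟨y', rfl⟩ := hy
  have hy'0 : y' ≠ 0 := left_ne_zero_of_mul hy0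
  have hπ0 : π ≠ 0 := right_ne_zero_of_mul hy0
  have h1 : ((y' * π : v.toValuationSubring) : F) = (y' : F) * (π : F) := rfl
  rw [h1, v.ord_mul (by simpa using hy'0) (by simpa using hπ0), v.ord_coe_irreducible hπ]
  have := ord_nonneg_of_mem v y'.2
  omega

/-- every element of `O_v` is congruent to a constant modulo the maximal ideal -/
theorem exists_const_sub (v : Place K F) (g : F) (hg0 : g ≠ 0) (hg : 0 ≤ v.ord g) :
    ∃ c : K, g = algebraMap K F c ∨ 0 < v.ord (g - algebraMap K F c) := by
  have hmem : g ∈ v.toValuationSubring := mem_of_ord_nonneg v hg0 hg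
  obtain ⟨c, hc⟩ := residue_surjective x hx v (IsLocalRing.residue _ ⟨g, hmem⟩)
  refine ⟨c, ?_⟩
  have h1 : (⟨g, hmem⟩ : v.toValuationSubring) - algebraMap K v.toValuationSubring c ∈
      IsLocalRing.maximalIdeal v.toValuationSubring := by
    rw [← IsLocalRing.residue_eq_zero_iff, map_sub, ← hc, sub_eq_zero]
    rfl
  by_cases h0 : (⟨g, hmem⟩ : v.toValuationSubring) - algebraMap K v.toValuationSubring c = 0
  · left
    have h2 : (⟨g, hmem⟩ : v.toValuationSubring) = algebraMap K v.toValuationSubring c :=
      sub_eq_zero.mp h0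
    have h3 : ((⟨g, hmem⟩ : v.toValuationSubring) : F) =
        ((algebraMap K v.toValuationSubring c : v.toValuationSubring) : F) := by rw [h2]
    rw [v.coe_algebraMap] at h3
    exact h3
  · right
    have h4 := ord_pos_of_mem_maximalIdeal x hx v _ h1 h0
    have h5 : (((⟨g, hmem⟩ : v.toValuationSubring) - algebraMap K v.toValuationSubring c :
        v.toValuationSubring) : F) = g - algebraMap K F c := by
      rw [AddSubgroupClass.coe_sub, v.coe_algebraMap]
    rwa [h5] at h4

end Residue

end Fermat.Agent.RR
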