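import Mathlib

/-!
# RR (item 72), helper piece: the residue at infinity on `K(x)`

`expInf : RatFunc K →ₐ[K] LaurentSeries K` is the expansion at infinity, in the parameter
`T = 1/x`.  `resInf c` is the coefficient of `T = x⁻¹` of `c`.

* `order_expInf : (expInf c).order = - c.intDegree` for `c ≠ 0`;
* `resInf_mul_polynomial_eq_zero_iff` : `res (c · K[x]) = 0 ↔ c ∈ K[x]`;
* `resInf_mul_integral_eq_zero_iff` : `res (c · O_∞) = 0 ↔ c = 0 ∨ deg c ≤ -2`.
-/

set_option autoImplicit false

open Polynomial

namespace Fermat.Agent.RR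

section Defs

variable (K : Type*) [Field K]

/-- `x = T⁻¹`, where `T` is the parameter at infinity -/
noncomputable def xInf : LaurentSeries K := HahnSeries.single (-1 : ℤ) 1

/-- expansion of a polynomial at infinity -/
noncomputable def polyExpInf : K[X] →ₐ[K] LaurentSeries K :=
  Polynomial.aeval (xInf K)

end Defs

variable {K : Type*} [Field K]

theorem xInf_pow (n : ℕ) : xInf K ^ n = HahnSeries.single (-(n : ℤ)) 1 := by
  rw [xInf, HahnSeries.single_pow, one_pow]
  congr 1
  simp

theorem algebraMap_laurent_eq_single (a : K) :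
    algebraMap K (LaurentSeries K) a = HahnSeries.single (0 : ℤ) a := by
  have h1 : algebraMap K (PowerSeries K) a = PowerSeries.C a := by simp
  rw [HahnSeries.algebraMap_apply', h1, HahnSeries.ofPowerSeries_C]
  rfl

theorem polyExpInf_monomial (n : ℕ) (a : K) :
    polyExpInf K (monomial n a) = HahnSeries.single (-(n : ℤ)) a := by
  rw [polyExpInf, Polynomial.aeval_monomial, xInf_pow, algebraMap_laurent_eq_single,
    HahnSeries.single_mul_single]
  simp

theorem coeff_polyExpInf (p : K[X]) (n : ℕ) :
    (polyExpInf K p).coeff (-(n : ℤ)) = p.coeff n := by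
  induction p using Polynomial.induction_on' with
  | add p q hp hq => rw [map_add, HahnSeries.coeff_add, hp, hq, Polynomial.coeff_add]
  | monomial m a =>
    rw [polyExpInf_monomial, Polynomial.coeff_monomial]
    by_cases h : m = n
    · subst h; simp
    · rw [if_neg h, HahnSeries.coeff_single_of_ne]
      intro h'
      apply h
      omega

theorem coeff_polyExpInf_of_pos (p : K[X]) {n : ℤ} (hn : 0 < n) :
    (polyExpInf K p).coeff n = 0 := by
  induction p using Polynomial.induction_on' with
  | add p q hp hq => rw [map_add, HahnSeries.coeff_add, hp, hq, add_zero]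
  | monomial m a =>
    rw [polyExpInf_monomial, HahnSeries.coeff_single_of_ne]
    omega

theorem polyExpInf_injective : Function.Injective (polyExpInf K) := by
  rw [injective_iff_map_eq_zero]
  intro p hp
  ext n
  rw [← coeff_polyExpInf, hp]
  simp

variable (K) in
/-- the expansion at infinity of a rational function -/
noncomputable def expInf : RatFunc K →ₐ[K] LaurentSeries K :=
  RatFunc.liftAlgHom (polyExpInf K)
    (nonZeroDivisors_le_comap_nonZeroDivisors_of_injective _ polyExpInf_injective)

theorem expInf_algebraMap (p : K[X]) :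
    expInf K (algebraMap K[X] (RatFunc K) p) = polyExpInf K p := by
  have := RatFunc.liftAlgHom_apply_div (polyExpInf K)
    (nonZeroDivisors_le_comap_nonZeroDivisors_of_injective _ polyExpInf_injective) p 1
  simpa [expInf] using this

theorem expInf_injective : Function.Injective (expInf K) :=
  (expInf K).toRingHom.injective

theorem expInf_X : expInf K RatFunc.X = xInf K := by
  rw [← RatFunc.algebraMap_X, expInf_algebraMap, polyExpInf, Polynomial.aeval_X]

variable (K) in
/-- the residue at infinity: the coefficient of `x⁻¹` -/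
noncomputable def resInf : RatFunc K →ₗ[K] K where
  toFun c := (expInf K c).coeff 1
  map_add' c d := by rw [map_add, HahnSeries.coeff_add]
  map_smul' a c := by
    rw [Algebra.smul_def, map_mul, AlgHom.commutes, algebraMap_laurent_eq_single,
      RingHom.id_apply, smul_eq_mul]
    have := HahnSeries.coeff_single_mul_add (r := a) (x := expInf K c) (a := (1 : ℤ)) (b := 0)
    rw [add_zero] at this
    exact this

theorem resInf_apply (c : RatFunc K) : resInf K c = (expInf K c).coeff 1 := rfl

theorem coeff_polyExpInf_int (p : K[X]) (n : ℤ) :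
    (polyExpInf K p).coeff n = if n ≤ 0 then p.coeff (-n).toNat else 0 := by
  split_ifs with h
  · obtain ⟨m, hm⟩ := Int.eq_ofNat_of_zero_le (neg_nonneg.mpr h)
    have hn : n = -(m : ℤ) := by omega
    rw [hn, coeff_polyExpInf]
    simp
  · exact coeff_polyExpInf_of_pos p (by omega)

theorem order_polyExpInf {p : K[X]} (hp : p ≠ 0) :
    (polyExpInf K p).order = -(p.natDegree : ℤ) := by
  have hne : polyExpInf K p ≠ 0 := fun h => hp (polyExpInf_injective (by rw [h, map_zero]))
  apply le_antisymm
  · apply HahnSeries.order_le_of_coeff_ne_zero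
    rw [coeff_polyExpInf]
    exact Polynomial.leadingCoeff_ne_zero.mpr hp
  · by_contra hlt
    push Not at hlt
    have h1 := HahnSeries.coeff_order_eq_zero.not.mpr hne
    rw [coeff_polyExpInf_int, if_pos (by omega)] at h1
    apply h1
    apply Polynomial.coeff_eq_zero_of_natDegree_lt
    omega

theorem expInf_eq_div (c : RatFunc K) :
    expInf K c = polyExpInf K c.num / polyExpInf K c.denom :=
  RatFunc.liftAlgHom_apply _ _ c

theorem expInf_ne_zero {c : RatFunc K} (hc : c ≠ 0) : expInf K c ≠ 0 :=
  fun h => hc (expInf_injective (by rw [h, map_zero]))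

theorem order_expInf {c : RatFunc K} (hc : c ≠ 0) : (expInf K c).order = -c.intDegree := by
  have hnum : c.num ≠ 0 := RatFunc.num_ne_zero hc
  have hden : c.denom ≠ 0 := RatFunc.denom_ne_zero c
  have hden' : polyExpInf K c.denom ≠ 0 :=
    fun h => hden (polyExpInf_injective (by rw [h, map_zero]))
  have h1 : expInf K c * polyExpInf K c.denom = polyExpInf K c.num := by
    rw [expInf_eq_div, div_mul_cancel₀ _ hden']
  have h2 := HahnSeries.order_mul (expInf_ne_zero hc) hden'
  rw [h1, order_polyExpInf hnum, order_polyExpInf hden] at h2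
  rw [RatFunc.intDegree]
  omega

theorem single_neg_one_zpow (n : ℤ) :
    (HahnSeries.single (-1 : ℤ) (1 : K)) ^ n = HahnSeries.single (-n) 1 := by
  have h1 : HahnSeries.single (-1 : ℤ) (1 : K) = (HahnSeries.single (1 : ℤ) (1 : K))⁻¹ := by
    rw [HahnSeries.inv_single, inv_one]
  have h2 : HahnSeries.single (-n) (1 : K) = (HahnSeries.single (n : ℤ) (1 : K))⁻¹ := by
    rw [HahnSeries.inv_single, inv_one]
  rw [h1, h2, inv_zpow, RatFunc.single_zpow n]

theorem expInf_X_zpow (n : ℤ) : expInf K (RatFunc.X ^ n) = HahnSeries.single (-n) 1 := by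
  rw [map_zpow₀, expInf_X, xInf, single_neg_one_zpow]

theorem intDegree_X_zpow (n : ℤ) : (RatFunc.X ^ n : RatFunc K).intDegree = n := by
  have hX : (RatFunc.X : RatFunc K) ≠ 0 := RatFunc.X_ne_zero
  have h := order_expInf (zpow_ne_zero n hX)
  rw [expInf_X_zpow, HahnSeries.order_single (by simp)] at h
  omega

/-- the residue of `c · xⁿ` is the coefficient of `T ^ (n + 1)` -/
theorem resInf_mul_X_zpow (c : RatFunc K) (n : ℤ) :
    resInf K (c * RatFunc.X ^ n) = (expInf K c).coeff (n + 1) := by
  rw [resInf_apply, map_mul, expInf_X_zpow]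
  have := HahnSeries.coeff_mul_single_add (r := (1 : K)) (x := expInf K c) (a := n + 1) (b := -n)
  rw [mul_one] at this
  rw [← this]
  congr 1
  ring

theorem resInf_X_zpow (n : ℤ) : resInf K (RatFunc.X ^ n) = if n = -1 then 1 else 0 := by
  rw [resInf_apply, expInf_X_zpow]
  split_ifs with h
  · subst h; simp
  · rw [HahnSeries.coeff_single_of_ne]
    omega

/-- **Orthogonal of the valuation ring at infinity.** -/
theorem resInf_mul_integral_eq_zero_iff (c : RatFunc K) :
    (∀ u : RatFunc K, u.intDegree ≤ 0 → resInf K (c * u) = 0) ↔ (c = 0 ∨ c.intDegree ≤ -2) := by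
  constructor
  · intro h
    by_contra hcon
    push Not at hcon
    obtain ⟨hc, hdeg⟩ := hcon
    have h1 := h (RatFunc.X ^ (-c.intDegree - 1)) (by rw [intDegree_X_zpow]; omega)
    rw [resInf_mul_X_zpow] at h1
    have h2 := HahnSeries.coeff_order_eq_zero.not.mpr (expInf_ne_zero hc)
    rw [order_expInf hc] at h2
    apply h2
    rw [← h1]
    congr 1
    ring
  · rintro (rfl | hdeg) u hu
    · simp
    · by_cases hc : c = 0
      · subst hc; simp
      by_cases hu0 : u = 0
      · subst hu0; simp
      rw [resInf_apply]
      apply HahnSeries.coeff_eq_zero_of_lt_order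
      rw [order_expInf (mul_ne_zero hc hu0), RatFunc.intDegree_mul hc hu0]
      omega

/-- **Orthogonal of the polynomial ring.** -/
theorem resInf_mul_polynomial_eq_zero_iff (c : RatFunc K) :
    (∀ p : K[X], resInf K (c * algebraMap K[X] (RatFunc K) p) = 0) ↔
      c ∈ Set.range (algebraMap K[X] (RatFunc K)) := by
  constructor
  · intro h
    -- all coefficients of positive index vanish
    have hpos : ∀ n : ℤ, 0 < n → (expInf K c).coeff n = 0 := by
      intro n hn
      obtain ⟨m, hm⟩ := Int.eq_ofNat_of_zero_le (show (0 : ℤ) ≤ n - 1 by omega)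
      have h1 := h (Polynomial.X ^ m)
      have h2 : algebraMap K[X] (RatFunc K) (Polynomial.X ^ m) = RatFunc.X ^ (m : ℤ) := by
        rw [map_pow, RatFunc.algebraMap_X, zpow_natCast]
      rw [h2, resInf_mul_X_zpow] at h1
      rw [← h1]
      congr 1
      omega
    by_cases hc : c = 0
    · exact ⟨0, by rw [hc, map_zero]⟩
    set M : ℕ := (-(expInf K c).order).toNat with hM
    refine ⟨∑ i ∈ Finset.range (M + 1), Polynomial.monomial i ((expInf K c).coeff (-(i : ℤ))), ?_⟩
    apply expInf_injective
    rw [expInf_algebraMap]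
    ext n
    rw [coeff_polyExpInf_int]
    split_ifs with hn
    · rw [Polynomial.finsetSum_coeff]
      simp only [Polynomial.coeff_monomial]
      rw [Finset.sum_ite_eq' (Finset.range (M + 1)) ((-n).toNat)]
      split_ifs with hmem
      · congr 1
        omega
      · symm
        apply HahnSeries.coeff_eq_zero_of_lt_order
        rw [Finset.mem_range] at hmem
        omega
    · exact (hpos n (by omega)).symm
  · rintro ⟨p₀, rfl⟩ p
    rw [resInf_apply, ← map_mul, expInf_algebraMap]
    exact coeff_polyExpInf_of_pos _ one_pos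

end Fermat.Agent.RR
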