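import Mathlib
import Fermat.Agent.RR.Defs
import Fermat.Agent.RR.Residue

/-!
# Riemann–Roch (item 72), step R2: the trace–residue pairing, statements of the two trace duals

* `rho x hx : F →ₗ[K] K`, `f ↦ res_∞ (Tr_{F/K(x)} f)` (the functional of the pairing);
* `TraceDualFin t`  : the dual of the integral closure of `K[t]` under the trace form;
* `TraceDualZero t` : the same, localised at `t = 0`.
-/

set_option autoImplicit false

open AlgebraicCurve KaehlerDifferential IntermediateField Polynomial

noncomputable section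

namespace Fermat.Agent.RR

variable {K F : Type*} [Field K] [Field F] [Algebra K F]

/-- The functional `f ↦ res_∞ (Tr_{F/K(x)} f)`. -/
def rho (x : F) (hx : Transcendental K x) [FiniteDimensional K⟮x⟯ F] : F →ₗ[K] K :=
  resInf K ∘ₗ (RatFunc.algEquivOfTranscendental x hx).symm.toLinearMap ∘ₗ
    (Algebra.trace K⟮x⟯ F).restrictScalars K

theorem rho_apply (x : F) (hx : Transcendental K x) [FiniteDimensional K⟮x⟯ F] (f : F) :
    rho x hx f = resInf K ((RatFunc.algEquivOfTranscendental x hx).symm
      (Algebra.trace K⟮x⟯ F f)) := rfl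

/-- (C1) **global trace dual** with respect to `K[t]`: `Tr (h b)` is a polynomial in `t` for all
`b` integral over `K[t]` iff `h` has order at least `- ord_v (dt)` at all places where `t` is
finite. -/
def TraceDualFin (K : Type*) {F : Type*} [Field K] [Field F] [Algebra K F]
    (t : F) [FiniteDimensional K⟮t⟯ F] : Prop :=
  ∀ h : F,
    (∀ b ∈ lamFin t (0 : Divisor K F),
        ∃ p : K[X], Polynomial.aeval t p = ((Algebra.trace K⟮t⟯ F (h * b) : K⟮t⟯) : F))
      ↔ ∀ v : Place K F, 0 ≤ v.ord t → h = 0 ∨ -v.ordDifferential (D K F t) ≤ v.ord h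

/-- (C2) **local trace dual** at `t = 0`: `Tr (h b)` is regular at `t = 0` for all `b` regular at
all places over `t = 0` iff `h` has order at least `- ord_v (dt)` at all places over `t = 0`. -/
def TraceDualZero (K : Type*) {F : Type*} [Field K] [Field F] [Algebra K F]
    (t : F) [FiniteDimensional K⟮t⟯ F] : Prop :=
  ∀ h : F,
    (∀ b : F, (∀ v : Place K F, 0 < v.ord t → 0 ≤ v.ord b) →
        ∀ v : Place K F, 0 < v.ord t → 0 ≤ v.ord ((Algebra.trace K⟮t⟯ F (h * b) : K⟮t⟯) : F))
      ↔ ∀ v : Place K F, 0 < v.ord t → h = 0 ∨ -v.ordDifferential (D K F t) ≤ v.ord h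

end Fermat.Agent.RR
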