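import Mathlib
import Fermat.Agent.RR.AIndex
import Fermat.Agent.FF.Separation
import Fermat.Agent.FF.ARH

/-!
# Riemann–Roch (item 72), step R3a (helper6): the codimension-one steps

`exists_lamFin_succ`, `exists_lamInf_succ`: adding a place to the divisor enlarges the lattice
`lamFin x D` (resp. `lamInf x D`) by exactly one dimension.

Ingredients: weak approximation with exact orders (`StepAux.exists_exact_ord`), the residue field
of a place is `K` (item 66: `place_deg_eq_one`), finiteness of the fibres of `x` and of the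
support of a principal divisor (item 66).
-/

set_option autoImplicit false

open AlgebraicCurve WithZero Module IntermediateField

noncomputable section

namespace Fermat.Agent.RR

namespace StepAux

open Fermat.Agent.FF.H6

variable {K F : Type*} [Field K] [Field F] [Algebra K F]

theorem ord_prod (v : Place K F) {ι : Type*} (s : Finset ι) (f : ι → F)
    (hf : ∀ i ∈ s, f i ≠ 0) : v.ord (∏ i ∈ s, f i) = ∑ i ∈ s, v.ord (f i) := by
  classical
  induction s using Finset.induction_on with
  | empty => simp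
  | insert a s ha ih =>
    rw [Finset.prod_insert ha, Finset.sum_insert ha,
      v.ord_mul (hf a (Finset.mem_insert_self a s))
        (Finset.prod_ne_zero_iff.mpr fun i hi => hf i (Finset.mem_insert_of_mem hi)),
      ih fun i hi => hf i (Finset.mem_insert_of_mem hi)]

/-- an element of order one at `u` and order zero at finitely many other places -/
theorem exists_local_param (u : Place K F) (s : Finset (Place K F)) (hu : u ∉ s) :
    ∃ t : F, t ≠ 0 ∧ u.ord t = 1 ∧ ∀ w ∈ s, w.ord t = 0 := by
  classical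
  obtain ⟨π, hπ⟩ := IsDiscreteValuationRing.exists_irreducible u.toValuationSubring
  have hπ0 : (π : F) ≠ 0 := fun h => hπ.ne_zero (Subtype.ext h)
  have hπ1 : u.ord (π : F) = 1 := u.ord_coe_irreducible hπ
  obtain ⟨z, hz0, hzu, hzs⟩ := exists_pos_forall_neg u s hu
  -- the exponent
  obtain ⟨N, hN2, hN⟩ : ∃ N : ℕ, 2 ≤ N ∧ ∀ w ∈ s, |w.ord (π : F)| < (N : ℤ) := by
    refine ⟨(∑ w ∈ s, |w.ord (π : F)|).toNat + 2, by omega, fun w hw => ?_⟩
    have h1 : |w.ord (π : F)| ≤ ∑ w ∈ s, |w.ord (π : F)| :=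
      Finset.single_le_sum (f := fun w : Place K F => |w.ord (π : F)|)
        (fun i _ => abs_nonneg _) hw
    have h2 := Int.self_le_toNat (∑ w ∈ s, |w.ord (π : F)|)
    push_cast
    omega
  have hzN0 : z ^ N ≠ 0 := pow_ne_zero N hz0
  have h1 : (1 : F) ≠ 0 := one_ne_zero
  -- at `u`
  have huzN : u.ord (z ^ N) = N * u.ord z := ord_pow' u z N
  have hden_u := ord_add_eq_of_lt u h1 hzN0 (by
    rw [u.ord_one, huzN]
    have : (0 : ℤ) < N := by omega
    positivity)
  have hnum_u := ord_add_eq_of_lt u hπ0 hzN0 (by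
    rw [hπ1, huzN]
    have : (2 : ℤ) ≤ N := by exact_mod_cast hN2
    nlinarith)
  have hden0 : 1 + z ^ N ≠ 0 := hden_u.1
  have hnum0 : (π : F) + z ^ N ≠ 0 := hnum_u.1
  refine ⟨((π : F) + z ^ N) / (1 + z ^ N), div_ne_zero hnum0 hden0, ?_, fun w hw => ?_⟩
  · rw [ord_div' u hnum0 hden0, hnum_u.2, hden_u.2, hπ1, u.ord_one, sub_zero]
  · have hwz := hzs w hw
    have hwzN : w.ord (z ^ N) = N * w.ord z := ord_pow' w z N
    have hNpos : (2 : ℤ) ≤ N := by exact_mod_cast hN2
    have hlt : (N : ℤ) * w.ord z ≤ -(N : ℤ) := by nlinarith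
    have hden_w := ord_add_eq_of_gt w h1 hzN0 (by rw [w.ord_one, hwzN]; omega)
    have hnum_w := ord_add_eq_of_gt w hπ0 hzN0 (by
      rw [hwzN]
      have := hN w hw
      have := neg_abs_le (w.ord (π : F))
      omega)
    rw [ord_div' w hnum0 hden0, hnum_w.2, hden_w.2, sub_self]

/-- **Weak approximation, exact orders.** -/
theorem exists_exact_ord (s : Finset (Place K F)) (n : Place K F → ℤ) :
    ∃ a : F, a ≠ 0 ∧ ∀ u ∈ s, u.ord a = n u := by
  classical
  have hloc : ∀ u : Place K F, ∃ t : F, t ≠ 0 ∧ u.ord t = 1 ∧ ∀ w ∈ s.erase u, w.ord t = 0 :=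
    fun u => exists_local_param u (s.erase u) (Finset.notMem_erase u s)
  choose t ht0 htu hts using hloc
  have hne : ∀ u ∈ s, t u ^ n u ≠ 0 := fun u _ => zpow_ne_zero _ (ht0 u)
  refine ⟨∏ u ∈ s, t u ^ n u, Finset.prod_ne_zero_iff.mpr hne, fun u hu => ?_⟩
  rw [ord_prod u s _ hne, Finset.sum_eq_single u]
  · rw [u.ord_zpow, htu u, mul_one]
  · intro w _ hwu
    rw [u.ord_zpow, hts w u (Finset.mem_erase.mpr ⟨Ne.symm hwu, hu⟩), mul_zero]
  · intro h
    exact absurd hu h

/-- the residue field of a place of degree one is `K` -/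
theorem exists_sub_const (v : Place K F) (hdeg : v.deg = 1) (u : F) (hu : 0 ≤ v.ord u) :
    ∃ c : K, u = algebraMap K F c ∨ 0 < v.ord (u - algebraMap K F c) := by
  have hmem : u ∈ v.toValuationSubring := mem_of_ord_nonneg v hu
  have h1 : (1 : v.ResidueField) ≠ 0 := one_ne_zero
  obtain ⟨c, hc⟩ := (finrank_eq_one_iff_of_nonzero' (1 : v.ResidueField) h1).mp hdeg
    (IsLocalRing.residue v.toValuationSubring ⟨u, hmem⟩)
  refine ⟨c, ?_⟩
  by_cases h0 : u = algebraMap K F c
  · exact Or.inl h0
  right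
  have hsub0 : u - algebraMap K F c ≠ 0 := sub_ne_zero.mpr h0
  have hmem' : u - algebraMap K F c ∈ v.toValuationSubring :=
    sub_mem hmem (v.algebraMap_mem' c)
  have hres : IsLocalRing.residue v.toValuationSubring
      (⟨u, hmem⟩ - algebraMap K v.toValuationSubring c) = 0 := by
    rw [map_sub, ← hc, Algebra.smul_def, mul_one]
    exact sub_eq_zero.mpr rfl
  have hnu : ¬ IsUnit ((⟨u, hmem⟩ : v.toValuationSubring) - algebraMap K v.toValuationSubring c) :=
    (IsLocalRing.residue_eq_zero_iff _).mp hres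
  have hnn := ord_nonneg_of_mem v hmem'
  rcases hnn.lt_or_eq with h | h
  · exact h
  exfalso
  apply hnu
  have hinv : (u - algebraMap K F c)⁻¹ ∈ v.toValuationSubring := by
    apply mem_of_ord_nonneg
    rw [v.ord_inv, ← h, neg_zero]
  refine IsUnit.of_mul_eq_one (⟨_, hinv⟩ : v.toValuationSubring) ?_
  apply Subtype.ext
  show (u - algebraMap K F c) * (u - algebraMap K F c)⁻¹ = 1
  exact mul_inv_cancel₀ hsub0

/-- The abstract codimension-one step. -/
theorem step_of_exists (Λ Λ' : Submodule K F) (v : Place K F) (hdeg : v.deg = 1) (n : ℤ)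
    (hΛ : ∀ f, f ∈ Λ ↔ f ∈ Λ' ∧ (f = 0 ∨ -n ≤ v.ord f))
    (hΛ' : ∀ f ∈ Λ', f = 0 ∨ -(n + 1) ≤ v.ord f)
    (a : F) (ha : a ∈ Λ') (ha0 : a ≠ 0) (hav : v.ord a = -(n + 1)) :
    a ∉ Λ ∧ Λ' = Λ ⊔ Submodule.span K {a} := by
  refine ⟨fun h => ?_, le_antisymm ?_ ?_⟩
  · rcases ((hΛ a).mp h).2 with h0 | h0
    · exact ha0 h0
    · omega
  · intro f hf
    by_cases hf0 : f = 0
    · rw [hf0]; exact Submodule.zero_mem _
    have hfv : -(n + 1) ≤ v.ord f := (hΛ' f hf).resolve_left hf0
    have hq : 0 ≤ v.ord (f / a) := by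
      rw [ord_div' v hf0 ha0, hav]
      omega
    obtain ⟨c, hc⟩ := exists_sub_const v hdeg (f / a) hq
    have hdec : f = (f - c • a) + c • a := by ring
    rw [hdec]
    refine Submodule.add_mem_sup ?_ (Submodule.smul_mem _ c (Submodule.mem_span_singleton_self a))
    rw [hΛ]
    refine ⟨Submodule.sub_mem _ hf (Submodule.smul_mem _ c ha), ?_⟩
    have hfac : f - c • a = a * (f / a - algebraMap K F c) := by
      rw [Algebra.smul_def]
      field_simp
    rcases hc with hc | hc
    · left
      rw [hfac, hc, sub_self, mul_zero]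
    · right
      have hne : f / a - algebraMap K F c ≠ 0 := ne_zero_of_ord_ne_zero v hc.ne'
      rw [hfac, v.ord_mul ha0 hne, hav]
      omega
  · refine sup_le (fun f hf => ((hΛ f).mp hf).1) ?_
    rw [Submodule.span_singleton_le_iff_mem]
    exact ha

section Chart

variable {K F : Type*} [Field K] [Field F] [Algebra K F] [IsAlgClosed K] [CharZero K]
variable (x : F) (hx : Transcendental K x) [FiniteDimensional K⟮x⟯ F]

include hx

theorem sub_const_ne_zero (b : K) : x - algebraMap K F b ≠ 0 := by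
  intro h
  apply hx
  rw [sub_eq_zero.mp h]
  exact isAlgebraic_algebraMap b

/-- `x - b` is regular at the places where `x` is finite -/
theorem ord_sub_const_nonneg (w : Place K F) (hw : 0 ≤ w.ord x) (b : K) :
    0 ≤ w.ord (x - algebraMap K F b) :=
  ord_nonneg_of_mem w (sub_mem (mem_of_ord_nonneg w hw) (w.algebraMap_mem' b))

/-- `x - b` is a unit at the places over `c ≠ b` -/
theorem ord_sub_const_eq_zero (w : Place K F) {b c : K} (hw : w ∈ Fermat.Agent.FF.placesOver x c)
    (hbc : b ≠ c) : w.ord (x - algebraMap K F b) = 0 := by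
  have hw' : 0 < w.ord (x - algebraMap K F c) := hw
  have hcb : algebraMap K F (c - b) ≠ 0 := by
    rw [Ne, map_eq_zero_iff _ (algebraMap K F).injective, sub_eq_zero]
    exact fun h => hbc h.symm
  have hdec : x - algebraMap K F b = algebraMap K F (c - b) + (x - algebraMap K F c) := by
    rw [map_sub]; ring
  rw [hdec]
  have := ord_add_eq_of_lt w hcb (sub_const_ne_zero x hx c) (by
    rw [ord_algebraMap]; exact hw')
  rw [this.2, ord_algebraMap]

/-- a place where `x` is finite lies over a value -/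
theorem exists_value (w : Place K F) (hw : 0 ≤ w.ord x) :
    ∃ c : K, w ∈ Fermat.Agent.FF.placesOver x c :=
  Fermat.Agent.FF.exists_mem_placesOver_of_mem x hx w (mem_of_ord_nonneg w hw)

/-- **Approximation in the affine chart**: prescribed exact orders at finitely many places where
`x` is finite, and no other poles in the chart. -/
theorem exists_chart_approx (T : Finset (Place K F)) (hT : ∀ w ∈ T, 0 ≤ w.ord x)
    (n : Place K F → ℤ) :
    ∃ a : F, a ≠ 0 ∧ (∀ u ∈ T, u.ord a = n u) ∧
      ∀ w : Place K F, 0 ≤ w.ord x → w ∉ T → 0 ≤ w.ord a := by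
  classical
  -- the values of the places in `T`
  have hval : ∀ w : Place K F, ∃ c : K, 0 ≤ w.ord x → w ∈ Fermat.Agent.FF.placesOver x c := by
    intro w
    by_cases hw : 0 ≤ w.ord x
    · obtain ⟨c, hc⟩ := exists_value x hx w hw
      exact ⟨c, fun _ => hc⟩
    · exact ⟨0, fun h => absurd h hw⟩
  choose val hvalmem using hval
  -- all places over the values of `T`
  obtain ⟨S, hS⟩ : ∃ S : Finset (Place K F), ∀ w, w ∈ S ↔ ∃ u ∈ T, w ∈
      Fermat.Agent.FF.placesOver x (val u) :=
    ⟨T.biUnion fun u => (Fermat.Agent.FF.placesOver_finite x hx (val u)).toFinset, fun w => by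
      simp only [Finset.mem_biUnion, Set.Finite.mem_toFinset]⟩
  have hTS : ∀ u ∈ T, u ∈ S := fun u hu => (hS u).mpr ⟨u, hu, hvalmem u (hT u hu)⟩
  have hSfin : ∀ w ∈ S, 0 ≤ w.ord x := by
    intro w hw
    obtain ⟨u, -, hwu⟩ := (hS w).mp hw
    have hwu' : 0 < w.ord (x - algebraMap K F (val u)) := hwu
    have hmem : x - algebraMap K F (val u) ∈ w.toValuationSubring :=
      mem_of_ord_nonneg w hwu'.le
    have : x ∈ w.toValuationSubring := by
      have := add_mem hmem (w.algebraMap_mem' (val u))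
      rwa [sub_add_cancel] at this
    exact ord_nonneg_of_mem w this
  -- exact orders on `S`
  obtain ⟨a₀, ha₀0, ha₀⟩ := exists_exact_ord S (fun w => if w ∈ T then n w else 0)
  -- the remaining poles in the chart
  obtain ⟨P, hP⟩ : ∃ P : Finset (Place K F), ∀ w, w ∈ P ↔
      (0 ≤ w.ord x ∧ w ∉ S ∧ w.ord a₀ < 0) :=
    ⟨(Fermat.Agent.FF.ord_support_finite x hx a₀).toFinset.filter
      (fun w => 0 ≤ w.ord x ∧ w ∉ S ∧ w.ord a₀ < 0), fun w => by
      simp only [Finset.mem_filter, Set.Finite.mem_toFinset, Set.mem_ofPred_eq]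
      constructor
      · exact fun h => h.2
      · exact fun h => ⟨fun h0 => by rw [h0] at h; exact lt_irrefl _ h.2.2, h⟩⟩
  have hfac0 : ∀ w ∈ P, (x - algebraMap K F (val w)) ^ (-w.ord a₀).toNat ≠ 0 :=
    fun w _ => pow_ne_zero _ (sub_const_ne_zero x hx (val w))
  have hp0 : ∏ w ∈ P, (x - algebraMap K F (val w)) ^ (-w.ord a₀).toNat ≠ 0 :=
    Finset.prod_ne_zero_iff.mpr hfac0
  -- orders of the correcting polynomial
  have hpS : ∀ u ∈ S, u.ord (∏ w ∈ P, (x - algebraMap K F (val w)) ^ (-w.ord a₀).toNat) = 0 := by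
    intro u hu
    rw [ord_prod u P _ hfac0]
    refine Finset.sum_eq_zero fun w hw => ?_
    obtain ⟨u', hu'T, hu'⟩ := (hS u).mp hu
    have hne : val w ≠ val u' := by
      intro h
      have hw' := (hP w).mp hw
      apply hw'.2.1
      rw [hS]
      exact ⟨u', hu'T, h ▸ hvalmem w hw'.1⟩
    rw [ord_pow', ord_sub_const_eq_zero x hx u hu' hne, mul_zero]
  have hpnn : ∀ w' : Place K F, 0 ≤ w'.ord x →
      0 ≤ w'.ord (∏ w ∈ P, (x - algebraMap K F (val w)) ^ (-w.ord a₀).toNat) := by
    intro w' hw'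
    rw [ord_prod w' P _ hfac0]
    refine Finset.sum_nonneg fun w _ => ?_
    rw [ord_pow']
    exact mul_nonneg (Int.natCast_nonneg _) (ord_sub_const_nonneg x hx w' hw' (val w))
  have hpP : ∀ w' ∈ P,
      -w'.ord a₀ ≤ w'.ord (∏ w ∈ P, (x - algebraMap K F (val w)) ^ (-w.ord a₀).toNat) := by
    intro w' hw'
    have hw'' := (hP w').mp hw'
    rw [ord_prod w' P _ hfac0]
    have h1 : w'.ord ((x - algebraMap K F (val w')) ^ (-w'.ord a₀).toNat) ≤
        ∑ w ∈ P, w'.ord ((x - algebraMap K F (val w)) ^ (-w.ord a₀).toNat) :=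
      Finset.single_le_sum (f := fun w => w'.ord ((x - algebraMap K F (val w)) ^ (-w.ord a₀).toNat))
        (fun w _ => by
          rw [ord_pow']
          exact mul_nonneg (Int.natCast_nonneg _) (ord_sub_const_nonneg x hx w' hw''.1 (val w)))
        hw'
    refine le_trans ?_ h1
    rw [ord_pow']
    have h2 : 0 < w'.ord (x - algebraMap K F (val w')) := hvalmem w' hw''.1
    have h3 : ((-w'.ord a₀).toNat : ℤ) = -w'.ord a₀ := Int.toNat_of_nonneg (by omega)
    rw [h3]
    nlinarith
  refine ⟨a₀ * ∏ w ∈ P, (x - algebraMap K F (val w)) ^ (-w.ord a₀).toNat,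
    mul_ne_zero ha₀0 hp0, fun u hu => ?_, fun w hw hwT => ?_⟩
  · rw [u.ord_mul ha₀0 hp0, hpS u (hTS u hu), add_zero, ha₀ u (hTS u hu), if_pos hu]
  · rw [w.ord_mul ha₀0 hp0]
    by_cases hwS : w ∈ S
    · rw [hpS w hwS, add_zero, ha₀ w hwS, if_neg hwT]
    · by_cases hneg : w.ord a₀ < 0
      · have := hpP w ((hP w).mpr ⟨hw, hwS, hneg⟩)
        omega
      · have := hpnn w hw
        omega

end Chart

end StepAux

open StepAux Fermat.Agent.FF.H6

section Main

variable {K F : Type*} [Field K] [Field F] [Algebra K F] [IsAlgClosed K] [CharZero K]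
variable (x : F) (hx : Transcendental K x) [FiniteDimensional K⟮x⟯ F]

include hx

/-- **R3a, affine chart**: adding a place where `x` is finite enlarges `lamFin x D` by one
dimension. -/
theorem exists_lamFin_succ (D : Divisor K F) (v : Place K F) (hv : 0 ≤ v.ord x) :
    ∃ a : F, a ∉ lamFin x D ∧
      lamFin x (D + Finsupp.single v 1) = lamFin x D ⊔ Submodule.span K {a} := by
  classical
  -- the finite set of relevant places
  obtain ⟨T, hT⟩ : ∃ T : Finset (Place K F), ∀ w, w ∈ T ↔
      (0 ≤ w.ord x ∧ (w = v ∨ D w ≠ 0)) :=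
    ⟨(insert v D.support).filter (fun w => 0 ≤ w.ord x), fun w => by
      simp only [Finset.mem_filter, Finset.mem_insert, Finsupp.mem_support_iff]
      tauto⟩
  obtain ⟨a, ha0, haT, hrest⟩ := exists_chart_approx x hx T (fun w hw => ((hT w).mp hw).1)
    (fun w => -((D + Finsupp.single v 1 : Divisor K F) w))
  have hvT : v ∈ T := (hT v).mpr ⟨hv, Or.inl rfl⟩
  have hav : v.ord a = -(D v + 1) := by
    rw [haT v hvT, Finsupp.add_apply, Finsupp.single_eq_same]
  have hamem : a ∈ lamFin x (D + Finsupp.single v 1) := by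
    rw [mem_lamFin_iff]
    intro w hw
    right
    by_cases hwT : w ∈ T
    · rw [haT w hwT]
    · have h1 := hrest w hw hwT
      have hwv : w ≠ v := fun h => hwT (h ▸ hvT)
      have hD : D w = 0 := by
        by_contra hne
        exact hwT ((hT w).mpr ⟨hw, Or.inr hne⟩)
      rw [Finsupp.add_apply, hD, Finsupp.single_eq_of_ne hwv, add_zero, neg_zero]
      exact h1
  refine ⟨a, step_of_exists (lamFin x D) (lamFin x (D + Finsupp.single v 1)) v
    (Fermat.Agent.FF.place_deg_eq_one x hx v) (D v) (fun f => ?_) (fun f hf => ?_) a hamem ha0 hav⟩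
  · rw [mem_lamFin_iff, mem_lamFin_iff]
    constructor
    · intro h
      refine ⟨fun w hw => ?_, h v hv⟩
      rcases h w hw with h0 | h0
      · exact Or.inl h0
      · right
        by_cases hwv : w = v
        · rw [hwv, Finsupp.add_apply, Finsupp.single_eq_same]
          rw [hwv] at h0
          omega
        · rw [Finsupp.add_apply, Finsupp.single_eq_of_ne hwv, add_zero]
          exact h0
    · rintro ⟨h1, h2⟩ w hw
      by_cases hwv : w = v
      · rw [hwv]; exact h2
      · have := h1 w hw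
        rwa [Finsupp.add_apply, Finsupp.single_eq_of_ne hwv, add_zero] at this
  · have := (mem_lamFin_iff.mp hf) v hv
    rwa [Finsupp.add_apply, Finsupp.single_eq_same] at this

/-- **R3a, chart at infinity**: adding a pole of `x` enlarges `lamInf x D` by one dimension. -/
theorem exists_lamInf_succ (D : Divisor K F) (v : Place K F) (hv : v.ord x < 0) :
    ∃ a : F, a ∉ lamInf x D ∧
      lamInf x (D + Finsupp.single v 1) = lamInf x D ⊔ Submodule.span K {a} := by
  classical
  obtain ⟨a, ha0, haT⟩ := exists_exact_ord (Fermat.Agent.FF.placesOverInf_finite x hx).toFinset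
    (fun w => -((D + Finsupp.single v 1 : Divisor K F) w))
  have hvT : v ∈ (Fermat.Agent.FF.placesOverInf_finite (K := K) x hx).toFinset :=
    (Set.Finite.mem_toFinset _).mpr hv
  have hav : v.ord a = -(D v + 1) := by
    rw [haT v hvT, Finsupp.add_apply, Finsupp.single_eq_same]
  have hamem : a ∈ lamInf x (D + Finsupp.single v 1) := by
    rw [mem_lamInf_iff]
    intro w hw
    right
    rw [haT w ((Set.Finite.mem_toFinset _).mpr hw)]
  refine ⟨a, step_of_exists (lamInf x D) (lamInf x (D + Finsupp.single v 1)) v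
    (Fermat.Agent.FF.place_deg_eq_one x hx v) (D v) (fun f => ?_) (fun f hf => ?_) a hamem ha0 hav⟩
  · rw [mem_lamInf_iff, mem_lamInf_iff]
    constructor
    · intro h
      refine ⟨fun w hw => ?_, h v hv⟩
      rcases h w hw with h0 | h0
      · exact Or.inl h0
      · right
        by_cases hwv : w = v
        · rw [hwv, Finsupp.add_apply, Finsupp.single_eq_same]
          rw [hwv] at h0
          omega
        · rw [Finsupp.add_apply, Finsupp.single_eq_of_ne hwv, add_zero]
          exact h0
    · rintro ⟨h1, h2⟩ w hw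
      by_cases hwv : w = v
      · rw [hwv]; exact h2
      · have := h1 w hw
        rwa [Finsupp.add_apply, Finsupp.single_eq_of_ne hwv, add_zero] at this
  · have := (mem_lamInf_iff.mp hf) v hv
    rwa [Finsupp.add_apply, Finsupp.single_eq_same] at this

end Main

end Fermat.Agent.RR
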