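import Mathlib
import Fermat.Prelude.Def_ModularCurve_CanonicalDivisor
import Fermat.Agent.RR.Defs
import Fermat.Agent.RR.AIndex
import Fermat.Agent.RR.ARiemann
import Fermat.Agent.RR.AStep
import Fermat.Agent.FF.AFibres
import Fermat.Agent.FF.ASeparation
import Fermat.Agent.FF.ADeriv
import Fermat.Agent.FF.ARH
import Fermat.Agent.RR.Step
import Fermat.Agent.RR.Pairing

/-!
# Item 72 (Riemann–Roch), R2, infinite half (helper9)

The orthogonality statement for `lamInf x` follows from the global trace dual for `y = 1/x`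
(`TraceDualFin K x⁻¹`).
-/

set_option autoImplicit false
set_option linter.unusedSectionVars false
set_option linter.style.haveILetI false

open AlgebraicCurve Polynomial IntermediateField Module KaehlerDifferential Fermat.Agent.FF

noncomputable section

namespace Fermat.Agent.RR

variable {K F : Type*} [Field K] [Field F] [Algebra K F]

section Trace

/-- the trace of `F / K(x)`, as a function `F → F` -/
def trF (x : F) [FiniteDimensional K⟮x⟯ F] (f : F) : F :=
  ((Algebra.trace K⟮x⟯ F f : K⟮x⟯) : F)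

theorem trF_mem (x : F) [FiniteDimensional K⟮x⟯ F] (f : F) : trF (K := K) x f ∈ K⟮x⟯ :=
  (Algebra.trace K⟮x⟯ F f).2

theorem trF_zero (x : F) [FiniteDimensional K⟮x⟯ F] : trF (K := K) x 0 = 0 := by
  simp [trF]

theorem trF_mul_of_mem (x : F) [FiniteDimensional K⟮x⟯ F] {c : F} (hc : c ∈ K⟮x⟯) (f : F) :
    trF (K := K) x (c * f) = c * trF (K := K) x f := by
  have h := (Algebra.trace K⟮x⟯ F).map_smul (⟨c, hc⟩ : K⟮x⟯) f
  have h1 : ((⟨c, hc⟩ : K⟮x⟯) • f : F) = c * f := rfl
  rw [h1] at h
  unfold trF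
  rw [h]
  rfl

theorem trF_congr {E₁ E₂ : IntermediateField K F} (h : E₁ = E₂) [FiniteDimensional E₁ F]
    [FiniteDimensional E₂ F] (f : F) :
    ((Algebra.trace E₁ F f : E₁) : F) = ((Algebra.trace E₂ F f : E₂) : F) := by
  subst h; rfl

theorem trF_inv (x : F) [FiniteDimensional K⟮x⟯ F] [FiniteDimensional K⟮x⁻¹⟯ F] (f : F) :
    trF (K := K) x⁻¹ f = trF (K := K) x f :=
  trF_congr (adjoin_simple_inv_eq (K := K) x) f

theorem aeval_mem_adjoin_simple (x : F) (p : K[X]) : aeval x p ∈ K⟮x⟯ := by
  induction p using Polynomial.induction_on' with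
  | add p q hp hq => rw [map_add]; exact add_mem hp hq
  | monomial n a =>
    rw [aeval_monomial]
    exact mul_mem (K⟮x⟯.algebraMap_mem a) (pow_mem (mem_adjoin_simple_self K x) n)

end Trace

section PrincDiv

variable [IsAlgClosed K] [CharZero K]
variable (x : F) (hx : Transcendental K x) [FiniteDimensional K⟮x⟯ F]

include hx

/-- the principal divisor of `h` -/
def princDiv (h : F) : Divisor K F :=
  Finsupp.ofSupportFinite (fun v : Place K F => v.ord h)
    ((ord_support_finite x hx h).subset fun v hv => by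
      simpa using hv)

theorem princDiv_apply (h : F) (v : Place K F) : princDiv x hx h v = v.ord h := rfl

/-- the values of `div(d(1/x))` -/
theorem ordDifferential_D_inv (v : Place K F) :
    v.ordDifferential (D K F x⁻¹) = v.ordDifferential (D K F x) - 2 * v.ord x := by
  haveI := dCoordGenerates x hx v
  haveI := nontrivial_kaehler x hx
  have hx0 : x ≠ 0 := ne_zero_of_transcendental x hx
  rw [Derivation.leibniz_inv,
    v.ordDifferential_smul (neg_ne_zero.mpr (pow_ne_zero 2 (inv_ne_zero hx0)))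
      (differentialCoeff_D_ne_zero x hx v), ord_neg, H6.ord_pow', v.ord_inv]
  push_cast
  ring

end PrincDiv

section Laurent

/-- a Laurent polynomial in `y` which is regular at a zero of `y` is a polynomial -/
theorem exists_aeval_of_pow_mul (v : Place K F) {y : F} (hy : 0 < v.ord y) (N : ℕ) (u : F)
    (hu : u = 0 ∨ 0 ≤ v.ord u) (p : K[X]) (hp : y ^ N * u = aeval y p) :
    ∃ p' : K[X], u = aeval y p' := by
  have hy0 : y ≠ 0 := by
    rintro rfl
    rw [v.ord_zero] at hy
    omega
  induction N generalizing p with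
  | zero => exact ⟨p, by rw [← hp, pow_zero, one_mul]⟩
  | succ N ih =>
    rcases eq_or_ne u 0 with hu0 | hu0
    · exact ⟨0, by rw [hu0, map_zero]⟩
    have hu1 : 0 ≤ v.ord u := hu.resolve_left hu0
    have hc : p.coeff 0 = 0 := by
      by_contra hc
      have h1 := ord_aeval_eq_zero_of_pos v hy p hc
      rw [← hp, v.ord_mul (pow_ne_zero _ hy0) hu0, H6.ord_pow'] at h1
      have h2 : 0 ≤ (N : ℤ) * v.ord y := mul_nonneg (Int.natCast_nonneg N) hy.le
      push_cast at h1
      nlinarith
    have hdec : aeval y p = aeval y p.divX * y := by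
      conv_lhs => rw [← Polynomial.divX_mul_X_add p]
      simp [hc]
    refine ih p.divX ?_
    have h3 : y * (y ^ N * u) = y * aeval y p.divX := by
      rw [mul_comm y (aeval y p.divX), ← hdec, ← hp]; ring
    exact mul_left_cancel₀ hy0 h3

end Laurent

section PoleKill

variable [IsAlgClosed K] [CharZero K]
variable (y : F) (hy : Transcendental K y) [FiniteDimensional K⟮y⟯ F]

include hy

/-- a polynomial in `y`, a unit at the zeros of `y`, vanishing to high order at finitely many
other places -/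
theorem exists_pole_killer (S : Finset (Place K F))
    (hS : ∀ w ∈ S, 0 ≤ w.ord y ∧ ¬ 0 < w.ord y) (N : ℕ) :
    ∃ Q : F, Q ≠ 0 ∧ Q ∈ K⟮y⟯ ∧ (∀ w : Place K F, 0 < w.ord y → w.ord Q = 0) ∧
      (∀ w : Place K F, 0 ≤ w.ord y → 0 ≤ w.ord Q) ∧ ∀ w ∈ S, (N : ℤ) ≤ w.ord Q := by
  classical
  induction S using Finset.induction_on with
  | empty =>
    exact ⟨1, one_ne_zero, one_mem _, fun w _ => w.ord_one, fun w _ => by rw [w.ord_one],
      fun w hw => absurd hw (Finset.notMem_empty w)⟩
  | insert w₀ S hw₀ ih =>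
    obtain ⟨Q₀, hQ0, hQmem, hQzero, hQfin, hQS⟩ :=
      ih fun w hw => hS w (Finset.mem_insert_of_mem hw)
    have hw₀' := hS w₀ (Finset.mem_insert_self w₀ S)
    obtain ⟨a, ha⟩ := StepAux.exists_value y hy w₀ hw₀'.1
    have ha' : 0 < w₀.ord (y - algebraMap K F a) := ha
    have ha0 : a ≠ 0 := by
      rintro rfl
      rw [map_zero, sub_zero] at ha'
      exact hw₀'.2 ha'
    have hne : y - algebraMap K F a ≠ 0 := StepAux.sub_const_ne_zero y hy a
    have hpne : (y - algebraMap K F a) ^ N ≠ 0 := pow_ne_zero _ hne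
    have hmem : y - algebraMap K F a ∈ K⟮y⟯ :=
      sub_mem (mem_adjoin_simple_self K y) (K⟮y⟯.algebraMap_mem a)
    refine ⟨(y - algebraMap K F a) ^ N * Q₀, mul_ne_zero hpne hQ0,
      mul_mem (pow_mem hmem N) hQmem, fun w hw => ?_, fun w hw => ?_, fun w hw => ?_⟩
    · have hw0 : w ∈ placesOver y (0 : K) := by
        show 0 < w.ord (y - algebraMap K F 0)
        rwa [map_zero, sub_zero]
      rw [w.ord_mul hpne hQ0, H6.ord_pow', StepAux.ord_sub_const_eq_zero y hy w hw0 ha0,
        hQzero w hw]
      simp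
    · rw [w.ord_mul hpne hQ0, H6.ord_pow']
      have h1 := StepAux.ord_sub_const_nonneg y hy w hw a
      have h2 := hQfin w hw
      have h3 : 0 ≤ (N : ℤ) * w.ord (y - algebraMap K F a) :=
        mul_nonneg (Int.natCast_nonneg N) h1
      omega
    · rw [w.ord_mul hpne hQ0, H6.ord_pow']
      have hwfin : 0 ≤ w.ord y := (hS w hw).1
      have h1 := StepAux.ord_sub_const_nonneg y hy w hwfin a
      have h2 := hQfin w hwfin
      rcases Finset.mem_insert.mp hw with rfl | hwS
      · have h3 : (N : ℤ) * 1 ≤ (N : ℤ) * w.ord (y - algebraMap K F a) :=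
          mul_le_mul_of_nonneg_left (by omega) (Int.natCast_nonneg N)
        omega
      · have h3 := hQS w hwS
        have h4 : 0 ≤ (N : ℤ) * w.ord (y - algebraMap K F a) :=
          mul_nonneg (Int.natCast_nonneg N) h1
        omega

/-- `div(dy)` is effective at the places where `y` is finite -/
theorem ordDifferential_D_nonneg (w : Place K F) (hw : 0 ≤ w.ord y) :
    0 ≤ w.ordDifferential (D K F y) := by
  obtain ⟨a, ha⟩ := StepAux.exists_value y hy w hw
  rw [ordDifferential_D_of_mem_placesOver y hy a w ha]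
  have ha' : 0 < w.ord (y - algebraMap K F a) := ha
  omega

theorem one_mem_lamFin_zero : (1 : F) ∈ lamFin y (0 : Divisor K F) := by
  rw [mem_lamFin_iff]
  intro w _
  right
  rw [w.ord_one]
  simp

/-- the easy half of the global trace dual, for `b = 1` -/
theorem exists_aeval_eq_trF (h1 : TraceDualFin K y) (h : F)
    (hh : ∀ w : Place K F, 0 ≤ w.ord y → h = 0 ∨ -w.ordDifferential (D K F y) ≤ w.ord h) :
    ∃ p : K[X], aeval y p = trF (K := K) y h := by
  obtain ⟨p, hp⟩ := (h1 h).mpr hh 1 (one_mem_lamFin_zero y hy)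
  rw [mul_one] at hp
  exact ⟨p, hp⟩

end PoleKill

section LocalDual

variable [IsAlgClosed K] [CharZero K]
variable (y : F) (hy : Transcendental K y) [FiniteDimensional K⟮y⟯ F]

include hy

theorem ord_eq_zero_of_nonneg_of_not_pos (w : Place K F) (h0 : 0 ≤ w.ord y)
    (h1 : ¬ 0 < w.ord y) : w.ord y = 0 := by omega

/-- **local trace dual at `y = 0`, easy direction**: if `h` lies in the local dual at all zeros
of `y`, then `Tr h` is regular at the zeros of `y`. -/
theorem trF_regular_of_dual (h1 : TraceDualFin K y) (h : F)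
    (hh : ∀ w : Place K F, 0 < w.ord y → h = 0 ∨ -w.ordDifferential (D K F y) ≤ w.ord h)
    (v : Place K F) (hv : 0 < v.ord y) :
    trF (K := K) y h = 0 ∨ 0 ≤ v.ord (trF (K := K) y h) := by
  classical
  rcases eq_or_ne h 0 with rfl | h0
  · exact Or.inl (trF_zero y)
  have hy0 : y ≠ 0 := ne_zero_of_transcendental y hy
  set S : Finset (Place K F) :=
    (ord_support_finite y hy h).toFinset.filter (fun w => 0 ≤ w.ord y ∧ ¬ 0 < w.ord y) with hSdef
  have hS : ∀ w ∈ S, 0 ≤ w.ord y ∧ ¬ 0 < w.ord y := fun w hw => (Finset.mem_filter.mp hw).2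
  have hSmem : ∀ w : Place K F, 0 ≤ w.ord y → ¬ 0 < w.ord y → w.ord h ≠ 0 → w ∈ S := by
    intro w hw1 hw2 hw3
    rw [hSdef, Finset.mem_filter, Set.Finite.mem_toFinset]
    exact ⟨hw3, hw1, hw2⟩
  set N : ℕ := ∑ w ∈ S, (-w.ord h).toNat with hNdef
  have hN : ∀ w ∈ S, -w.ord h ≤ (N : ℤ) := by
    intro w hw
    have h2 : (-w.ord h).toNat ≤ N :=
      Finset.single_le_sum (f := fun w : Place K F => (-w.ord h).toNat)
        (fun _ _ => Nat.zero_le _) hw
    have h3 := Int.self_le_toNat (-w.ord h)
    omega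
  obtain ⟨Q, hQ0, hQmem, hQzero, hQfin, hQS⟩ := exists_pole_killer y hy S hS N
  have hQh : ∀ w : Place K F, 0 ≤ w.ord y →
      Q * h = 0 ∨ -w.ordDifferential (D K F y) ≤ w.ord (Q * h) := by
    intro w hw
    right
    rw [w.ord_mul hQ0 h0]
    by_cases hw0 : 0 < w.ord y
    · rw [hQzero w hw0, zero_add]
      exact (hh w hw0).resolve_left h0
    · have hd := ordDifferential_D_nonneg y hy w hw
      by_cases hwS : w ∈ S
      · have := hN w hwS
        have := hQS w hwS
        omega
      · have h3 : w.ord h = 0 := by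
          by_contra hne
          exact hwS (hSmem w hw hw0 hne)
        have := hQfin w hw
        omega
  obtain ⟨p, hp⟩ := exists_aeval_eq_trF y hy h1 (Q * h) hQh
  rw [trF_mul_of_mem y hQmem] at hp
  by_cases ht : trF (K := K) y h = 0
  · exact Or.inl ht
  right
  have hymem : y ∈ v.toValuationSubring := mem_of_ord_nonneg v hy0 hv.le
  have h4 : 0 ≤ v.ord (aeval y p) := ord_nonneg_of_mem v (aeval_mem_valuationSubring v hymem p)
  rw [hp, v.ord_mul hQ0 ht, hQzero v hv, zero_add] at h4
  exact h4

/-- **local trace dual at `y = 0`, hard direction** (with a divisor `D`): if `Tr (f g)` is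
regular at the zeros of `y` for all `f` with `ord_w f ≥ -D w` at the zeros `w` of `y`, then
`ord_v g ≥ -(ord_v (dy) - D v)` at the zeros of `y`. -/
theorem dual_of_trF_regular (h1 : TraceDualFin K y) (D' : Divisor K F) (g : F)
    (H : ∀ f : F, (∀ w : Place K F, 0 < w.ord y → f = 0 ∨ -D' w ≤ w.ord f) →
      ∀ w : Place K F, 0 < w.ord y →
        trF (K := K) y (f * g) = 0 ∨ 0 ≤ w.ord (trF (K := K) y (f * g)))
    (v : Place K F) (hv : 0 < v.ord y) :
    g = 0 ∨ -(v.ordDifferential (D K F y) - D' v) ≤ v.ord g := by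
  classical
  rcases eq_or_ne g 0 with hg0 | hg0
  · exact Or.inl hg0
  right
  have hy0 : y ≠ 0 := ne_zero_of_transcendental y hy
  have hover : ∀ w : Place K F, w ∈ placesOver y (0 : K) ↔ 0 < w.ord y := by
    intro w
    show 0 < w.ord (y - algebraMap K F 0) ↔ _
    rw [map_zero, sub_zero]
  set T : Finset (Place K F) :=
    (placesOver_finite y hy 0).toFinset ∪
      (ord_support_finite y hy g).toFinset.filter (fun w => 0 ≤ w.ord y) with hTdef
  have hTmem : ∀ w : Place K F, w ∈ T ↔ (0 < w.ord y ∨ (w.ord g ≠ 0 ∧ 0 ≤ w.ord y)) := by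
    intro w
    rw [hTdef, Finset.mem_union, Finset.mem_filter, Set.Finite.mem_toFinset,
      Set.Finite.mem_toFinset, hover]
    rfl
  have hT : ∀ w ∈ T, 0 ≤ w.ord y := by
    intro w hw
    rcases (hTmem w).mp hw with h | h
    · exact h.le
    · exact h.2
  obtain ⟨a, ha0, haT, hrest⟩ := StepAux.exists_chart_approx y hy T hT
    (fun w => if 0 < w.ord y then -D' w else -w.ord g)
  -- the orders of `a`
  have ha1 : ∀ w : Place K F, 0 < w.ord y → w.ord a = -D' w := by
    intro w hw
    rw [haT w ((hTmem w).mpr (Or.inl hw)), if_pos hw]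
  have ha2 : ∀ w : Place K F, 0 ≤ w.ord y → ¬ 0 < w.ord y → 0 ≤ w.ord (a * g) := by
    intro w hw hw0
    rw [w.ord_mul ha0 hg0]
    by_cases hwT : w ∈ T
    · rw [haT w hwT, if_neg hw0]
      omega
    · have h3 : w.ord g = 0 := by
        by_contra hne
        exact hwT ((hTmem w).mpr (Or.inr ⟨hne, hw⟩))
      have := hrest w hw hwT
      omega
  have hag : a * g ≠ 0 := mul_ne_zero ha0 hg0
  -- the traces `Tr (a g b)`, `b` integral, are polynomials
  have claim : ∀ b ∈ lamFin y (0 : Divisor K F),
      ∃ p : K[X], aeval y p = ((Algebra.trace K⟮y⟯ F (a * g * b) : K⟮y⟯) : F) := by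
    intro b hb
    rcases eq_or_ne b 0 with rfl | hb0
    · refine ⟨0, ?_⟩
      rw [mul_zero, map_zero, map_zero]
      rfl
    have hb1 : ∀ w : Place K F, 0 ≤ w.ord y → 0 ≤ w.ord b := by
      intro w hw
      have := ((mem_lamFin_iff' hb0).mp hb) w hw
      simpa using this
    have hf : ∀ w : Place K F, 0 < w.ord y → a * b = 0 ∨ -D' w ≤ w.ord (a * b) := by
      intro w hw
      right
      rw [w.ord_mul ha0 hb0, ha1 w hw]
      have := hb1 w hw.le
      omega
    have hu := H (a * b) hf v hv
    have hh0 : a * b * g ≠ 0 := mul_ne_zero (mul_ne_zero ha0 hb0) hg0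
    set M : ℕ := ∑ w ∈ (placesOver_finite y hy 0).toFinset, (-w.ord (a * b * g)).toNat
      with hMdef
    have hM : ∀ w : Place K F, 0 < w.ord y → -w.ord (a * b * g) ≤ (M : ℤ) := by
      intro w hw
      have hwmem : w ∈ (placesOver_finite y hy 0).toFinset := by
        rw [Set.Finite.mem_toFinset, hover]; exact hw
      have h2 : (-w.ord (a * b * g)).toNat ≤ M :=
        Finset.single_le_sum (f := fun w : Place K F => (-w.ord (a * b * g)).toNat)
          (fun _ _ => Nat.zero_le _) hwmem
      have h3 := Int.self_le_toNat (-w.ord (a * b * g))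
      omega
    have hyM : y ^ M ≠ 0 := pow_ne_zero _ hy0
    have hh2 : ∀ w : Place K F, 0 ≤ w.ord y → y ^ M * (a * b * g) = 0 ∨
        -w.ordDifferential (D K F y) ≤ w.ord (y ^ M * (a * b * g)) := by
      intro w hw
      right
      have hd := ordDifferential_D_nonneg y hy w hw
      rw [w.ord_mul hyM hh0, H6.ord_pow']
      by_cases hw0 : 0 < w.ord y
      · have := hM w hw0
        have h5 : (M : ℤ) * 1 ≤ (M : ℤ) * w.ord y :=
          mul_le_mul_of_nonneg_left (by omega) (Int.natCast_nonneg M)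
        omega
      · have h6 : w.ord y = 0 := by omega
        rw [h6, mul_zero, zero_add]
        have e : a * b * g = a * g * b := by ring
        rw [e, w.ord_mul hag hb0]
        have := ha2 w hw hw0
        have := hb1 w hw
        omega
    obtain ⟨p, hp⟩ := exists_aeval_eq_trF y hy h1 (y ^ M * (a * b * g)) hh2
    rw [trF_mul_of_mem y (pow_mem (mem_adjoin_simple_self K y) M)] at hp
    obtain ⟨p', hp'⟩ := exists_aeval_of_pow_mul v hv M (trF (K := K) y (a * b * g)) hu p hp.symm
    refine ⟨p', ?_⟩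
    have e : a * g * b = a * b * g := by ring
    rw [e]
    exact hp'.symm
  have key := ((h1 (a * g)).mp claim v hv.le).resolve_left hag
  rw [v.ord_mul ha0 hg0, ha1 v hv] at key
  omega

end LocalDual

section Main

variable [IsAlgClosed K] [CharZero K]

/-- **R2, infinite half** (item 72): for `f` running through `lamInf x D`, the trace
`Tr_{F/K(x)} (f g)` lies in `x⁻² O_∞` iff `g ∈ lamInf x (W - D)`, where `W` is the divisor of `dx`
(at the poles of `x`).  Derived from the global trace dual for `1/x`. -/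
theorem infHalf (x : F) (hx : Transcendental K x) [FiniteDimensional K⟮x⟯ F]
    [FiniteDimensional K⟮x⁻¹⟯ F] (h1 : TraceDualFin K x⁻¹)
    (W : Divisor K F) (hW : ∀ v : Place K F, v.ord x < 0 → W v = v.ordDifferential (D K F x))
    (D' : Divisor K F) (g : F) :
    (∀ f ∈ lamInf x D', ∀ v : Place K F, v.ord x < 0 →
        ((Algebra.trace K⟮x⟯ F (f * g) : K⟮x⟯) : F) = 0 ∨
          -2 * v.ord x ≤ v.ord ((Algebra.trace K⟮x⟯ F (f * g) : K⟮x⟯) : F))
      ↔ g ∈ lamInf x (W - D') := by
  have hx0 : x ≠ 0 := ne_zero_of_transcendental x hx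
  have hy : Transcendental K x⁻¹ := transcendental_inv hx
  have hord : ∀ v : Place K F, v.ord x⁻¹ = -v.ord x := fun v => v.ord_inv x
  have hx2 : x ^ 2 ≠ 0 := pow_ne_zero 2 hx0
  have hx2mem : x ^ 2 ∈ K⟮x⁻¹⟯ := by
    have h : x ∈ K⟮x⁻¹⟯ := by
      have := inv_mem (mem_adjoin_simple_self K x⁻¹)
      rwa [inv_inv] at this
    exact pow_mem h 2
  have htr : ∀ h : F, trF (K := K) x⁻¹ (x ^ 2 * h) = x ^ 2 * trF (K := K) x h := by
    intro h
    rw [trF_mul_of_mem x⁻¹ hx2mem, trF_inv]
  constructor
  · intro H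
    rw [mem_lamInf_iff]
    intro v hv
    rcases eq_or_ne g 0 with hg0 | hg0
    · exact Or.inl hg0
    right
    have hv' : 0 < v.ord x⁻¹ := by rw [hord]; omega
    have key := dual_of_trF_regular x⁻¹ hy h1 D' (x ^ 2 * g) (fun f hf w hw => by
      have hw' : w.ord x < 0 := by rw [hord] at hw; omega
      have hfmem : f ∈ lamInf x D' := by
        rw [mem_lamInf_iff]
        intro u hu
        exact hf u (by rw [hord]; omega)
      have h2 := H f hfmem w hw'
      have e : f * (x ^ 2 * g) = x ^ 2 * (f * g) := by ring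
      rw [e, htr]
      rcases h2 with h2 | h2
      · left
        show x ^ 2 * ((Algebra.trace K⟮x⟯ F (f * g) : K⟮x⟯) : F) = 0
        rw [h2, mul_zero]
      · by_cases h3 : trF (K := K) x (f * g) = 0
        · left
          rw [h3, mul_zero]
        · right
          rw [w.ord_mul hx2 h3, H6.ord_pow']
          have h4 : -2 * w.ord x ≤ w.ord (trF (K := K) x (f * g)) := h2
          push_cast
          omega) v hv'
    have key' := key.resolve_left (mul_ne_zero hx2 hg0)
    rw [v.ord_mul hx2 hg0, H6.ord_pow', ordDifferential_D_inv x hx v, ← hW v hv] at key'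
    rw [Finsupp.sub_apply]
    push_cast at key'
    omega
  · intro hg f hf v hv
    have hv' : 0 < v.ord x⁻¹ := by rw [hord]; omega
    have key := trF_regular_of_dual x⁻¹ hy h1 (x ^ 2 * (f * g)) (fun w hw => by
      have hw' : w.ord x < 0 := by rw [hord] at hw; omega
      rcases eq_or_ne f 0 with hf0 | hf0
      · left; rw [hf0, zero_mul, mul_zero]
      rcases eq_or_ne g 0 with hg0 | hg0
      · left; rw [hg0, mul_zero, mul_zero]
      right
      have h2 := ((mem_lamInf_iff' hf0).mp hf) w hw'
      have h3 := ((mem_lamInf_iff' hg0).mp hg) w hw'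
      rw [Finsupp.sub_apply] at h3
      rw [w.ord_mul hx2 (mul_ne_zero hf0 hg0), w.ord_mul hf0 hg0, H6.ord_pow',
        ordDifferential_D_inv x hx w, ← hW w hw']
      push_cast
      omega) v hv'
    rw [htr] at key
    by_cases h3 : trF (K := K) x (f * g) = 0
    · exact Or.inl h3
    right
    have key' := key.resolve_left (mul_ne_zero hx2 h3)
    rw [v.ord_mul hx2 h3, H6.ord_pow'] at key'
    show -2 * v.ord x ≤ v.ord (trF (K := K) x (f * g))
    push_cast at key'
    omega

end Main

end Fermat.Agent.RR
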