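import Mathlib
import Fermat.Agent.RR.Step
import Fermat.Agent.RR.Pairing

/-!
# Riemann–Roch (item 72), step R2, finite half (helper6)

`finHalf`: for `f` running through `lamFin x D`, the trace `Tr_{F/K(x)} (f g)` is a polynomial
in `x` iff `g ∈ lamFin x (W - D)`, where `W` is the divisor of `dx` (at the places where `x` is
finite).  Derived from the global trace dual `TraceDualFin K x`.
-/

set_option autoImplicit false
set_option linter.unusedSectionVars false
set_option linter.style.haveILetI false

open AlgebraicCurve KaehlerDifferential IntermediateField Polynomial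

noncomputable section

namespace Fermat.Agent.RR

variable {K F : Type*} [Field K] [Field F] [Algebra K F] [IsAlgClosed K] [CharZero K]

/-- The finite half of the pairing statement, as a proposition (the form used by the infinite
half). -/
def FinHalfH6 (K F : Type*) [Field K] [Field F] [Algebra K F] : Prop :=
  ∀ (x : F), Transcendental K x → FiniteDimensional K⟮x⟯ F →
    ∀ (W : Divisor K F), (∀ v : Place K F, 0 ≤ v.ord x → W v = v.ordDifferential (D K F x)) →
      ∀ (D : Divisor K F) (g : F),
        (∀ f ∈ lamFin x D, ∃ p : K[X],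
            ((Algebra.trace K⟮x⟯ F (f * g) : K⟮x⟯) : F) = Polynomial.aeval x p)
          ↔ g ∈ lamFin x (W - D)

/-- **R2, finite half**. -/
theorem finHalf (x : F) (hx : Transcendental K x) [FiniteDimensional K⟮x⟯ F]
    (h1 : TraceDualFin K x)
    (W : Divisor K F) (hW : ∀ v : Place K F, 0 ≤ v.ord x → W v = v.ordDifferential (D K F x))
    (D : Divisor K F) (g : F) :
    (∀ f ∈ lamFin x D, ∃ p : K[X],
        ((Algebra.trace K⟮x⟯ F (f * g) : K⟮x⟯) : F) = Polynomial.aeval x p)
      ↔ g ∈ lamFin x (W - D) := by
  classical
  constructor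
  · intro h
    rw [mem_lamFin_iff]
    intro v hv
    by_cases hg : g = 0
    · exact Or.inl hg
    right
    -- an element of `lamFin x D` of exact order `-D v` at `v`
    obtain ⟨T, hT⟩ : ∃ T : Finset (Place K F), ∀ w, w ∈ T ↔
        (0 ≤ w.ord x ∧ (w = v ∨ D w ≠ 0)) :=
      ⟨(insert v D.support).filter (fun w => 0 ≤ w.ord x), fun w => by
        simp only [Finset.mem_filter, Finset.mem_insert, Finsupp.mem_support_iff]
        tauto⟩
    obtain ⟨a, ha0, haT, hrest⟩ := StepAux.exists_chart_approx x hx T
      (fun w hw => ((hT w).mp hw).1) (fun w => -(D w))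
    have hvT : v ∈ T := (hT v).mpr ⟨hv, Or.inl rfl⟩
    have hamem : a ∈ lamFin x D := by
      rw [mem_lamFin_iff]
      intro w hw
      right
      by_cases hwT : w ∈ T
      · rw [haT w hwT]
      · have h1 := hrest w hw hwT
        have hD : D w = 0 := by
          by_contra hne
          exact hwT ((hT w).mpr ⟨hw, Or.inr hne⟩)
        rw [hD, neg_zero]
        exact h1
    have hag : a * g ≠ 0 := mul_ne_zero ha0 hg
    have key := (h1 (a * g)).mp (fun b hb => by
      have hab : a * b ∈ lamFin x D := by
        have := mul_mem_lamFin hamem hb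
        rwa [add_zero] at this
      obtain ⟨p, hp⟩ := h (a * b) hab
      refine ⟨p, ?_⟩
      have e : a * g * b = a * b * g := by ring
      rw [e, hp]) v hv
    rcases key with h0 | h0
    · exact absurd h0 hag
    · rw [v.ord_mul ha0 hg, haT v hvT, ← hW v hv] at h0
      rw [Finsupp.sub_apply]
      linarith
  · intro hgm f hf
    have hfg : f * g ∈ lamFin x W := by
      have := mul_mem_lamFin hf hgm
      rwa [add_sub_cancel] at this
    have key := (h1 (f * g)).mpr (fun v hv => by
      have := (mem_lamFin_iff.mp hfg) v hv
      rwa [hW v hv] at this)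
    obtain ⟨p, hp⟩ := key 1 (by
      rw [mem_lamFin_iff]
      intro v _
      right
      rw [v.ord_one]
      simp)
    refine ⟨p, ?_⟩
    rw [hp, mul_one]

/-- The finite half, packaged. -/
theorem finHalfH6_of_traceDualFin
    (h1 : ∀ (t : F), Transcendental K t → ∀ [FiniteDimensional K⟮t⟯ F], TraceDualFin K t) :
    FinHalfH6 K F := by
  intro x hx hfd W hW D g
  haveI := hfd
  exact finHalf x hx (h1 x hx) W hW D g

end Fermat.Agent.RR
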