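import Mathlib
import Fermat.Agent.RR.AIndex
import Fermat.Agent.FF.AFibres

/-!
# Riemann–Roch (item 72), step R4 (helper6): Weil's duality argument

Inputs (as hypotheses):
* `RiemannData K x` : the output of step R3 (finiteness, `χ(D) = deg D + χ(0)`, `l(0) = 1`,
                      `l(D) = 0` for `deg D < 0`);
* `ρ`, `hρ`         : the output of steps R1 + R2 (a `K`-linear functional `ρ` on `F` such that
                      the orthogonal of `lamFin x D` / `lamInf x D` under `(f, g) ↦ ρ (f * g)` is
                      `lamFin x (W - D)` / `lamInf x (W - D)`).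

Outputs:
* `duality`      : `dim H1' x D = dim L(W - D)`;
* `rr_canonical` : `2 * dim L(W) = deg W + 2`.
-/

set_option autoImplicit false

open AlgebraicCurve WithZero Module IntermediateField

noncomputable section

namespace Fermat.Agent.RR

namespace DualityAux

variable {K F : Type*} [Field K] [Field F] [Algebra K F]

/-- the sum of the two lattices -/
def lam (x : F) (D : Divisor K F) : Submodule K F := lamFin x D ⊔ lamInf x D

theorem mul_mem_lam {x : F} {E D : Divisor K F} {f h : F} (hf : f ∈ riemannRochSpace E)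
    (hh : h ∈ lam x D) : f * h ∈ lam x (E + D) := by
  obtain ⟨h₁, hh₁, h₂, hh₂, rfl⟩ := Submodule.mem_sup.mp hh
  rw [mul_add]
  exact Submodule.add_mem_sup (mul_mem_lamFin (riemannRochSpace_le_lamFin x E hf) hh₁)
    (mul_mem_lamInf (riemannRochSpace_le_lamInf x E hf) hh₂)

/-- the functional `f ↦ ρ (f * g)` -/
def psi (ρ : F →ₗ[K] K) : F →ₗ[K] Module.Dual K F where
  toFun g := ρ.comp (LinearMap.mulRight K g)
  map_add' g g' := by
    ext f
    simp [mul_add]
  map_smul' c g := by
    ext f
    simp

@[simp]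
theorem psi_apply (ρ : F →ₗ[K] K) (g f : F) : psi ρ g f = ρ (f * g) := rfl

/-- the functional `h ↦ φ (f * h)` -/
def twist (φ : Module.Dual K F) : F →ₗ[K] Module.Dual K F where
  toFun f := φ.comp (LinearMap.mulLeft K f)
  map_add' f f' := by
    ext h
    simp [add_mul]
  map_smul' c f := by
    ext h
    simp

@[simp]
theorem twist_apply (φ : Module.Dual K F) (f h : F) : twist φ f h = φ (f * h) := rfl

section Pairing

variable {x : F} {W : Divisor K F} {ρ : F →ₗ[K] K}
  (hρ : ∀ (D : Divisor K F) (g : F),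
    ((∀ f ∈ lamFin x D, ρ (f * g) = 0) ↔ g ∈ lamFin x (W - D)) ∧
    ((∀ f ∈ lamInf x D, ρ (f * g) = 0) ↔ g ∈ lamInf x (W - D)))

include hρ

theorem psi_mem_dualAnnihilator_iff (D : Divisor K F) (g : F) :
    psi ρ g ∈ (lam x D).dualAnnihilator ↔ g ∈ riemannRochSpace (W - D) := by
  rw [Submodule.mem_dualAnnihilator, riemannRochSpace_eq_inf x, Submodule.mem_inf,
    ← (hρ D g).1, ← (hρ D g).2]
  constructor
  · intro h
    exact ⟨fun f hf => h f (Submodule.mem_sup_left hf), fun f hf => h f (Submodule.mem_sup_right hf)⟩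
  · rintro ⟨h1, h2⟩ f hf
    obtain ⟨f₁, hf₁, f₂, hf₂, rfl⟩ := Submodule.mem_sup.mp hf
    rw [psi_apply, add_mul, map_add, h1 f₁ hf₁, h2 f₂ hf₂, add_zero]

end Pairing

section Counting

variable {x : F}

theorem finrank_dualAnnihilator (D : Divisor K F) :
    finrank K (lam x D).dualAnnihilator = finrank K (H1' x D) := by
  have h := LinearEquiv.finrank_eq (Submodule.dualQuotEquivDualAnnihilator (lam x D))
  rw [Subspace.dual_finrank_eq] at h
  exact h.symm

variable (hR : RiemannData K x)

include hR

theorem eq_zero_of_degree_neg (D : Divisor K F) (hD : Divisor.degree D < 0) (f : F)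
    (hf : f ∈ riemannRochSpace D) : f = 0 := by
  have := hR.finite_L D
  have h0 := hR.l_neg D hD
  rw [Submodule.finrank_eq_zero] at h0
  rw [h0] at hf
  exact (Submodule.mem_bot K).mp hf

theorem finite_dualAnnihilator (D : Divisor K F) :
    Module.Finite K (lam x D).dualAnnihilator := by
  have : Module.Finite K (F ⧸ lam x D) := hR.finite_H1 D
  exact Module.Finite.equiv (Submodule.dualQuotEquivDualAnnihilator (lam x D))

/-- `l(E) ≥ deg E + χ(0)` -/
theorem l_ge (E : Divisor K F) :
    Divisor.degree E + chi x (0 : Divisor K F) ≤ (finrank K (riemannRochSpace E) : ℤ) := by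
  have h := hR.chi_eq E
  have h0 : (0 : ℤ) ≤ (finrank K (H1' x E) : ℤ) := Int.natCast_nonneg _
  unfold chi at h ⊢
  linarith

/-- `h¹(D) = -deg D - χ(0)` for `deg D < 0` -/
theorem h1_of_neg (D : Divisor K F) (hD : Divisor.degree D < 0) :
    (finrank K (H1' x D) : ℤ) = -Divisor.degree D - chi x (0 : Divisor K F) := by
  have h := hR.chi_eq D
  have h0 := hR.l_neg D hD
  unfold chi at h ⊢
  rw [h0] at h
  push_cast at h
  linarith

end Counting

section Weil

variable {x : F} {W : Divisor K F} (hR : RiemannData K x)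
  (hdeg : ∀ m : ℕ, ∃ E : Divisor K F, Divisor.degree E = m) {ρ : F →ₗ[K] K}
  (hρ : ∀ (D : Divisor K F) (g : F),
    ((∀ f ∈ lamFin x D, ρ (f * g) = 0) ↔ g ∈ lamFin x (W - D)) ∧
    ((∀ f ∈ lamInf x D, ρ (f * g) = 0) ↔ g ∈ lamInf x (W - D)))

include hR hdeg hρ

theorem psi_injective : Function.Injective (psi ρ) := by
  rw [← LinearMap.ker_eq_bot, LinearMap.ker_eq_bot']
  intro g hg
  obtain ⟨E, hE⟩ := hdeg (Divisor.degree W + 1).toNat
  have hmem : g ∈ riemannRochSpace (W - E) := by
    rw [← psi_mem_dualAnnihilator_iff hρ E g, hg]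
    exact Submodule.zero_mem _
  refine eq_zero_of_degree_neg hR (W - E) ?_ g hmem
  rw [map_sub, hE]
  have := Int.self_le_toNat (Divisor.degree W + 1)
  omega

/-- the map `(f, g) ↦ f • φ + ⟨·, g⟩` of Weil's argument is injective -/
theorem weil_inequality (D E : Divisor K F) (φ : Module.Dual K F)
    (hφ : φ ∈ (lam x D).dualAnnihilator) (hnot : ∀ g : F, psi ρ g ≠ φ) :
    finrank K (riemannRochSpace E) + finrank K (riemannRochSpace (W - D + E))
      ≤ finrank K (H1' x (D - E)) := by
  have := hR.finite_L E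
  have := hR.finite_L (W - D + E)
  have := finite_dualAnnihilator hR (D - E)
  -- the map
  let T₀ : (riemannRochSpace E × riemannRochSpace (W - D + E)) →ₗ[K] Module.Dual K F :=
    ((twist φ).comp (riemannRochSpace E).subtype).coprod
      ((psi ρ).comp (riemannRochSpace (W - D + E)).subtype)
  have hT₀ : ∀ p, T₀ p = twist φ (p.1 : F) + psi ρ (p.2 : F) := fun p => rfl
  have hmem : ∀ p, T₀ p ∈ (lam x (D - E)).dualAnnihilator := by
    intro p
    rw [hT₀]
    refine Submodule.add_mem _ ?_ ?_
    · rw [Submodule.mem_dualAnnihilator]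
      intro h hh
      rw [twist_apply]
      have h1 := mul_mem_lam p.1.2 hh
      rw [add_sub_cancel] at h1
      exact (Submodule.mem_dualAnnihilator φ).mp hφ _ h1
    · rw [psi_mem_dualAnnihilator_iff hρ]
      have : W - (D - E) = W - D + E := by abel
      rw [this]
      exact p.2.2
  have hinj : Function.Injective (T₀.codRestrict _ hmem) := by
    intro p q hpq
    have h0' : T₀ p = T₀ q := congrArg Subtype.val hpq
    have h0 : twist φ ((p.1 : F) - (q.1 : F)) + psi ρ ((p.2 : F) - (q.2 : F)) = 0 := by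
      rw [map_sub, map_sub]
      rw [hT₀, hT₀] at h0'
      rw [sub_add_sub_comm, h0', sub_self]
    have hf0 : (p.1 : F) - (q.1 : F) = 0 := by
      by_contra hne
      apply hnot (-((p.2 : F) - (q.2 : F)) / ((p.1 : F) - (q.1 : F)))
      ext h'
      have h1 := LinearMap.congr_fun h0 (h' / ((p.1 : F) - (q.1 : F)))
      simp only [LinearMap.add_apply, twist_apply, psi_apply, LinearMap.zero_apply] at h1
      rw [mul_div_cancel₀ _ hne] at h1
      rw [psi_apply]
      have h2 : h' * (-((p.2 : F) - (q.2 : F)) / ((p.1 : F) - (q.1 : F))) =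
          -(h' / ((p.1 : F) - (q.1 : F)) * ((p.2 : F) - (q.2 : F))) := by
        field_simp
      rw [h2, map_neg]
      linear_combination -h1
    have hg0 : (p.2 : F) - (q.2 : F) = 0 := by
      rw [hf0, map_zero, zero_add] at h0
      exact psi_injective hR hdeg hρ (by rw [h0, map_zero])
    exact Prod.ext (Subtype.ext (sub_eq_zero.mp hf0)) (Subtype.ext (sub_eq_zero.mp hg0))
  have h3 := LinearMap.finrank_le_finrank_of_injective hinj
  rw [Module.finrank_prod, finrank_dualAnnihilator] at h3
  exact h3

/-- **Weil's argument**: every functional vanishing on `lam x D` is of the form `⟨·, g⟩`. -/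
theorem exists_psi_eq (D : Divisor K F) (φ : Module.Dual K F)
    (hφ : φ ∈ (lam x D).dualAnnihilator) : ∃ g : F, psi ρ g = φ := by
  by_contra hcon
  rw [not_exists] at hcon
  obtain ⟨c, hc⟩ : ∃ c : ℤ, c = chi x (0 : Divisor K F) := ⟨_, rfl⟩
  obtain ⟨m, hm1, hm2⟩ : ∃ m : ℕ, Divisor.degree D < m ∧
      -Divisor.degree W - 3 * c < m := by
    refine ⟨(max (Divisor.degree D) (-Divisor.degree W - 3 * c)).toNat + 1, ?_, ?_⟩
    · have := Int.self_le_toNat (max (Divisor.degree D) (-Divisor.degree W - 3 * c))
      have := le_max_left (Divisor.degree D) (-Divisor.degree W - 3 * c)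
      push_cast
      omega
    · have := Int.self_le_toNat (max (Divisor.degree D) (-Divisor.degree W - 3 * c))
      have := le_max_right (Divisor.degree D) (-Divisor.degree W - 3 * c)
      push_cast
      omega
  obtain ⟨E, hE⟩ := hdeg m
  have h1 := weil_inequality hR hdeg hρ D E φ hφ hcon
  have h2 := l_ge hR E
  have h3 := l_ge hR (W - D + E)
  have h4 := h1_of_neg hR (D - E) (by rw [map_sub, hE]; omega)
  rw [map_add, map_sub, hE, ← hc] at h3
  rw [hE, ← hc] at h2
  rw [map_sub, hE, ← hc] at h4
  have h1' : (finrank K (riemannRochSpace E) : ℤ) + finrank K (riemannRochSpace (W - D + E))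
      ≤ finrank K (H1' x (D - E)) := by exact_mod_cast h1
  omega

/-- **R4, duality** (with the existence of divisors of every degree as a hypothesis). -/
theorem duality_core (D : Divisor K F) :
    finrank K (H1' x D) = finrank K (riemannRochSpace (W - D)) := by
  rw [← finrank_dualAnnihilator D]
  have hinj : Function.Injective
      (((psi ρ).comp (riemannRochSpace (W - D)).subtype).codRestrict (lam x D).dualAnnihilator
        (fun g => (psi_mem_dualAnnihilator_iff hρ D g).mpr g.2)) := by
    intro g g' h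
    have : psi ρ (g : F) = psi ρ (g' : F) := congrArg Subtype.val h
    exact Subtype.ext (psi_injective hR hdeg hρ this)
  have hsurj : Function.Surjective
      (((psi ρ).comp (riemannRochSpace (W - D)).subtype).codRestrict (lam x D).dualAnnihilator
        (fun g => (psi_mem_dualAnnihilator_iff hρ D g).mpr g.2)) := by
    rintro ⟨φ, hφ⟩
    obtain ⟨g, hg⟩ := exists_psi_eq hR hdeg hρ D φ hφ
    have hgm : g ∈ riemannRochSpace (W - D) := by
      rw [← psi_mem_dualAnnihilator_iff hρ D g, hg]
      exact hφ
    exact ⟨⟨g, hgm⟩, Subtype.ext hg⟩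
  exact (LinearEquiv.finrank_eq (LinearEquiv.ofBijective _ ⟨hinj, hsurj⟩)).symm

/-- **R5** (with the existence of divisors of every degree as a hypothesis):
`2 l(W) = deg W + 2`. -/
theorem rr_canonical_core :
    2 * (finrank K (riemannRochSpace W) : ℤ) = Divisor.degree W + 2 := by
  have h0 := duality_core hR hdeg hρ (0 : Divisor K F)
  have hW := duality_core hR hdeg hρ W
  rw [sub_zero] at h0
  rw [sub_self, hR.l_zero] at hW
  have hχ := hR.chi_eq W
  unfold chi at hχ
  rw [hW, h0, hR.l_zero] at hχ
  push_cast at hχ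
  linarith

end Weil

end DualityAux

open DualityAux

section Final

variable {K F : Type*} [Field K] [Field F] [Algebra K F] [IsAlgClosed K] [CharZero K]
variable (x : F) (hx : Transcendental K x) [FiniteDimensional K⟮x⟯ F]

include hx

/-- divisors of every degree exist -/
theorem exists_divisor_degree (m : ℕ) : ∃ E : Divisor K F, Divisor.degree E = m := by
  obtain ⟨v, -⟩ := Fermat.Agent.FF.placesOver_nonempty x hx (0 : K)
  refine ⟨Finsupp.single v (m : ℤ), ?_⟩
  rw [Divisor.degree_single, Fermat.Agent.FF.place_deg_eq_one x hx v]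
  simp

/-- **R4, duality**: `h¹(D) = l(W - D)`. -/
theorem duality (hR : RiemannData K x) (W : Divisor K F) (ρ : F →ₗ[K] K)
    (hρ : ∀ (D : Divisor K F) (g : F),
      ((∀ f ∈ lamFin x D, ρ (f * g) = 0) ↔ g ∈ lamFin x (W - D)) ∧
      ((∀ f ∈ lamInf x D, ρ (f * g) = 0) ↔ g ∈ lamInf x (W - D)))
    (D : Divisor K F) :
    Module.finrank K (H1' x D) = Module.finrank K (riemannRochSpace (W - D)) :=
  duality_core hR (exists_divisor_degree x hx) hρ D

/-- **R5 core**: `2 l(W) = deg W + 2` for any `W` admitting a pairing. -/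
theorem rr_canonical (hR : RiemannData K x) (W : Divisor K F) (ρ : F →ₗ[K] K)
    (hρ : ∀ (D : Divisor K F) (g : F),
      ((∀ f ∈ lamFin x D, ρ (f * g) = 0) ↔ g ∈ lamFin x (W - D)) ∧
      ((∀ f ∈ lamInf x D, ρ (f * g) = 0) ↔ g ∈ lamInf x (W - D))) :
    2 * (Module.finrank K (riemannRochSpace W) : ℤ) = Divisor.degree W + 2 :=
  rr_canonical_core hR (exists_divisor_degree x hx) hρ

end Final

end Fermat.Agent.RR
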