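import Mathlib
import Fermat.Agent.RR.Duality
import Fermat.Agent.RR.Step
import Fermat.Agent.RR.ARiemann
import Fermat.Agent.FF.S20Interface

/-!
# Riemann–Roch (item 72), step R5 (helper6): the final assembly

`rrStatement_of_pairing`: `RRStatement K F` (item 72 deliverable) from the residue pairing
(`PairingStatement K F`, the R1+R2 deliverable `exists_pairing`), using
* R3a (`exists_lamFin_succ`, `exists_lamInf_succ`),
* R3b (`riemannData_of_steps`),
* R4/R5 core (`rr_canonical`).
-/

set_option autoImplicit false

open AlgebraicCurve Module IntermediateField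

noncomputable section

namespace Fermat.Agent.RR

variable (K F : Type*) [Field K] [Field F] [Algebra K F]

/-- The R1+R2 deliverable as a proposition: the divisor of `dx` admits a residue pairing. -/
def PairingStatement : Prop :=
  ∀ (x : F), Transcendental K x → FiniteDimensional K⟮x⟯ F →
    ∀ W : Divisor K F, (∀ v : Place K F, W v = v.ordDifferential (KaehlerDifferential.D K F x)) →
      ∃ ρ : F →ₗ[K] K, ∀ (D : Divisor K F) (g : F),
        ((∀ f ∈ lamFin x D, ρ (f * g) = 0) ↔ g ∈ lamFin x (W - D)) ∧
        ((∀ f ∈ lamInf x D, ρ (f * g) = 0) ↔ g ∈ lamInf x (W - D))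

variable {K F}

/-- **R3 assembled**: the Riemann data of `(F, x)`. -/
theorem riemannData_final [IsAlgClosed K] [CharZero K] (x : F) (hx : Transcendental K x)
    [FiniteDimensional K⟮x⟯ F] : RiemannData K x :=
  riemannData_of_steps x hx (exists_lamFin_succ x hx) (exists_lamInf_succ x hx)

/-- **R5**: Riemann–Roch for the canonical divisor, from the residue pairing. -/
theorem rrStatement_of_pairing [IsAlgClosed K] [CharZero K] (hP : PairingStatement K F) :
    Fermat.Agent.FF.RRStatement K F := by
  intro x hx hfd W hW
  haveI := hfd
  obtain ⟨ρ, hρ⟩ := hP x hx hfd W hW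
  have hR := riemannData_final x hx
  exact ⟨hR.finite_L W, rr_canonical x hx hR W ρ hρ⟩

end Fermat.Agent.RR
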