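import Mathlib
import Fermat.Agent.RR.Defs
import Fermat.Agent.RR.Residue
import Fermat.Agent.RR.Pairing
import Fermat.Agent.RR.ARiemann

/-!
# Riemann–Roch (item 72), step R2: the glue (helper7)

`exists_pairing_of_halves`: the residue pairing `rho x hx` of `RR/Pairing.lean` has the two
orthogonality properties, given the *finite half* and the *infinite half* in their
"trace" forms:

* finite half: `Tr (f g) ∈ K[x]` for all `f ∈ lamFin x D` iff `g ∈ lamFin x (W - D)`;
* infinite half: `Tr (f g) ∈ x⁻² O_∞` for all `f ∈ lamInf x D` iff `g ∈ lamInf x (W - D)`.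

Ingredients: the two orthogonality lemmas for `resInf` (`RR/Residue.lean`) and the link between
the degree of a rational function and the order of its value at a pole of `x`
(`ord_ratFunc_of_neg`).
-/

set_option autoImplicit false
set_option linter.unusedSectionVars false

open AlgebraicCurve Polynomial IntermediateField Fermat.Agent.FF

noncomputable section

namespace Fermat.Agent.RR

variable {K F : Type*} [Field K] [Field F] [Algebra K F]

/-- the value at `x` of a rational function, as an element of `F` -/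
theorem coe_algEquivOfTranscendental (x : F) (hx : Transcendental K x) (c : RatFunc K) :
    ((RatFunc.algEquivOfTranscendental x hx c : K⟮x⟯) : F) =
      aeval x c.num / aeval x c.denom :=
  RatFunc.algEquivOfTranscendental_apply x hx c

theorem coe_aeval_gen (x : F) (p : K[X]) :
    ((aeval (AdjoinSimple.gen K x) p : K⟮x⟯) : F) = aeval x p := by
  have h := Polynomial.aeval_algebraMap_apply F (AdjoinSimple.gen K x) p
  rw [AdjoinSimple.algebraMap_gen] at h
  exact h.symm

/-- **degree–order link**: at a pole `v` of `x`, the order of `c(x)` is `deg c * ord_v x`. -/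
theorem ord_ratFunc_of_neg (x : F) (hx : Transcendental K x) (v : Place K F)
    (hv : v.ord x < 0) {c : RatFunc K} (hc : c ≠ 0) :
    v.ord ((RatFunc.algEquivOfTranscendental x hx c : K⟮x⟯) : F) = c.intDegree * v.ord x := by
  have hnum : c.num ≠ 0 := RatFunc.num_ne_zero hc
  have hden : c.denom ≠ 0 := RatFunc.denom_ne_zero c
  have hnum' : aeval x c.num ≠ 0 := fun h => hnum ((transcendental_iff.mp hx) _ h)
  have hden' : aeval x c.denom ≠ 0 := fun h => hden ((transcendental_iff.mp hx) _ h)
  rw [coe_algEquivOfTranscendental, div_eq_mul_inv, v.ord_mul hnum' (inv_ne_zero hden'),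
    v.ord_inv, ord_aeval_of_neg v hv _ hnum, ord_aeval_of_neg v hv _ hden, RatFunc.intDegree]
  ring

section Trace

variable (x : F) (hx : Transcendental K x) [FiniteDimensional K⟮x⟯ F]

/-- `rho` in terms of the rational function `e⁻¹ (Tr f)`. -/
theorem rho_mul_coe (u : K⟮x⟯) (f : F) :
    rho x hx ((u : F) * f) =
      resInf K ((RatFunc.algEquivOfTranscendental x hx).symm (Algebra.trace K⟮x⟯ F f) *
        (RatFunc.algEquivOfTranscendental x hx).symm u) := by
  rw [rho_apply]
  have h1 : (u : F) * f = u • f := by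
    rw [Algebra.smul_def]; rfl
  rw [h1, map_smul, smul_eq_mul, map_mul, mul_comm]

theorem rho_eq (f : F) :
    rho x hx f =
      resInf K ((RatFunc.algEquivOfTranscendental x hx).symm (Algebra.trace K⟮x⟯ F f)) :=
  rfl

end Trace

/-- multiplication by a polynomial in `x` preserves `lamFin x D` -/
theorem aeval_mul_mem_lamFin {x : F} (hx0 : x ≠ 0) {D : Divisor K F} {f : F}
    (hf : f ∈ lamFin x D) (q : K[X]) : aeval x q * f ∈ lamFin x D := by
  intro v hv
  rw [map_mul]
  have hxmem : x ∈ v.toValuationSubring := mem_of_ord_nonneg v hx0 hv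
  have h1 : v.adicValuation (aeval x q) ≤ 1 :=
    v.adicValuation_le_one_of_mem (aeval_mem_valuationSubring v hxmem q)
  exact (mul_le_mul' h1 (hf v hv)).trans (by rw [one_mul])


/-- multiplication by a rational function in `x` of degree `≤ 0` preserves `lamInf x D` -/
theorem ratFunc_mul_mem_lamInf {x : F} (hx : Transcendental K x) {D : Divisor K F} {f : F}
    (hf : f ∈ lamInf x D) {w : RatFunc K} (hw : w.intDegree ≤ 0) :
    ((RatFunc.algEquivOfTranscendental x hx w : K⟮x⟯) : F) * f ∈ lamInf x D := by
  intro v hv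
  rw [map_mul]
  have h1 : v.adicValuation ((RatFunc.algEquivOfTranscendental x hx w : K⟮x⟯) : F) ≤ 1 := by
    rw [v.adicValuation_le_one_iff]
    rcases eq_or_ne w 0 with rfl | hw0
    · left; simp
    · right
      rw [ord_ratFunc_of_neg x hx v hv hw0]
      exact mul_nonneg_of_nonpos_of_nonpos hw hv.le
  exact (mul_le_mul' h1 (hf v hv)).trans (by rw [one_mul])

section Halves

variable (x : F) (hx : Transcendental K x) [FiniteDimensional K⟮x⟯ F]

/-- the finite half of the pairing, in terms of the trace -/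
theorem rho_lamFin_iff_polynomial (D : Divisor K F) (g : F) :
    (∀ f ∈ lamFin x D, rho x hx (f * g) = 0) ↔
      ∀ f ∈ lamFin x D, ∃ p : K[X],
        ((Algebra.trace K⟮x⟯ F (f * g) : K⟮x⟯) : F) = aeval x p := by
  have hx0 : x ≠ 0 := by
    rintro rfl
    exact hx isAlgebraic_zero
  set e := RatFunc.algEquivOfTranscendental x hx with he
  constructor
  · intro h f hf
    have h1 : ∀ q : K[X], resInf K (e.symm (Algebra.trace K⟮x⟯ F (f * g)) *
        algebraMap K[X] (RatFunc K) q) = 0 := by
      intro q
      have h2 := h _ (aeval_mul_mem_lamFin hx0 hf q)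
      have h3 : aeval x q * f * g = ((e (algebraMap K[X] (RatFunc K) q) : K⟮x⟯) : F) * (f * g) := by
        rw [he, RatFunc.algEquivOfTranscendental_algebraMap, mul_assoc, coe_aeval_gen]
      rw [h3, rho_mul_coe, ← he, AlgEquiv.symm_apply_apply] at h2
      exact h2
    obtain ⟨p, hp⟩ := (resInf_mul_polynomial_eq_zero_iff _).mp h1
    refine ⟨p, ?_⟩
    have h4 : Algebra.trace K⟮x⟯ F (f * g) = e (algebraMap K[X] (RatFunc K) p) := by
      rw [hp, AlgEquiv.apply_symm_apply]
    rw [h4, he, RatFunc.algEquivOfTranscendental_algebraMap, coe_aeval_gen]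
  · intro h f hf
    obtain ⟨p, hp⟩ := h f hf
    have h4 : Algebra.trace K⟮x⟯ F (f * g) = e (algebraMap K[X] (RatFunc K) p) := by
      apply Subtype.ext
      rw [hp, he, RatFunc.algEquivOfTranscendental_algebraMap, coe_aeval_gen]
    rw [rho_eq, ← he, h4, AlgEquiv.symm_apply_apply]
    have := (resInf_mul_polynomial_eq_zero_iff (algebraMap K[X] (RatFunc K) p)).mpr ⟨p, rfl⟩ 1
    simpa using this

/-- the infinite half of the pairing, in terms of the trace -/
theorem rho_lamInf_iff_ord [IsAlgClosed K] [CharZero K] (D : Divisor K F) (g : F) :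
    (∀ f ∈ lamInf x D, rho x hx (f * g) = 0) ↔
      ∀ f ∈ lamInf x D, ∀ v : Place K F, v.ord x < 0 →
        ((Algebra.trace K⟮x⟯ F (f * g) : K⟮x⟯) : F) = 0 ∨
          -2 * v.ord x ≤ v.ord ((Algebra.trace K⟮x⟯ F (f * g) : K⟮x⟯) : F) := by
  set e := RatFunc.algEquivOfTranscendental x hx with he
  constructor
  · intro h f hf v hv
    have h1 : ∀ w : RatFunc K, w.intDegree ≤ 0 →
        resInf K (e.symm (Algebra.trace K⟮x⟯ F (f * g)) * w) = 0 := by
      intro w hw
      have h2 := h _ (ratFunc_mul_mem_lamInf hx hf hw)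
      rw [mul_assoc, rho_mul_coe, AlgEquiv.symm_apply_apply] at h2
      exact h2
    by_cases h0 : e.symm (Algebra.trace K⟮x⟯ F (f * g)) = 0
    · left
      have : Algebra.trace K⟮x⟯ F (f * g) = 0 := by
        have := congrArg e h0
        rwa [AlgEquiv.apply_symm_apply, map_zero] at this
      rw [this]; rfl
    · right
      have hdeg : (e.symm (Algebra.trace K⟮x⟯ F (f * g))).intDegree ≤ -2 :=
        ((resInf_mul_integral_eq_zero_iff _).mp h1).resolve_left h0
      have h3 := ord_ratFunc_of_neg x hx v hv h0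
      rw [← he, AlgEquiv.apply_symm_apply] at h3
      rw [h3]
      nlinarith
  · intro h f hf
    rw [rho_eq, ← he]
    by_cases h0 : e.symm (Algebra.trace K⟮x⟯ F (f * g)) = 0
    · rw [h0, map_zero]
    obtain ⟨v, hv⟩ := placesOverInf_nonempty (K := K) x hx
    have hv' : v.ord x < 0 := hv
    have h3 := ord_ratFunc_of_neg x hx v hv' h0
    rw [← he, AlgEquiv.apply_symm_apply] at h3
    have hdeg : (e.symm (Algebra.trace K⟮x⟯ F (f * g))).intDegree ≤ -2 := by
      rcases h f hf v hv' with h4 | h4
      · exfalso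
        apply h0
        have : Algebra.trace K⟮x⟯ F (f * g) = 0 := Subtype.ext h4
        rw [this, map_zero]
      · rw [h3] at h4
        by_contra hcon
        push Not at hcon
        nlinarith
    have := (resInf_mul_integral_eq_zero_iff _).mpr (Or.inr hdeg) 1 (by simp)
    simpa using this

end Halves

/-- **R2 glue**: the residue pairing from the two halves in their trace forms. -/
theorem exists_pairing_of_halves [IsAlgClosed K] [CharZero K] (x : F) (hx : Transcendental K x)
    [FiniteDimensional K⟮x⟯ F] (W : Divisor K F)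
    (hfin : ∀ (D : Divisor K F) (g : F),
      (∀ f ∈ lamFin x D, ∃ p : K[X],
        ((Algebra.trace K⟮x⟯ F (f * g) : K⟮x⟯) : F) = aeval x p) ↔ g ∈ lamFin x (W - D))
    (hinf : ∀ (D : Divisor K F) (g : F),
      (∀ f ∈ lamInf x D, ∀ v : Place K F, v.ord x < 0 →
        ((Algebra.trace K⟮x⟯ F (f * g) : K⟮x⟯) : F) = 0 ∨
          -2 * v.ord x ≤ v.ord ((Algebra.trace K⟮x⟯ F (f * g) : K⟮x⟯) : F))
        ↔ g ∈ lamInf x (W - D)) :
    ∃ ρ : F →ₗ[K] K, ∀ (D : Divisor K F) (g : F),
      ((∀ f ∈ lamFin x D, ρ (f * g) = 0) ↔ g ∈ lamFin x (W - D)) ∧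
      ((∀ f ∈ lamInf x D, ρ (f * g) = 0) ↔ g ∈ lamInf x (W - D)) :=
  ⟨rho x hx, fun D g =>
    ⟨(rho_lamFin_iff_polynomial x hx D g).trans (hfin D g),
      (rho_lamInf_iff_ord x hx D g).trans (hinf D g)⟩⟩

end Fermat.Agent.RR
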