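import Mathlib
import Fermat.Agent.RR.Final
import Fermat.Agent.RR.FinHalf
import Fermat.Agent.RR.AInfHalf
import Fermat.Agent.RR.PairingGlue

/-!
# Item 72 (Riemann–Roch): final assembly from the global trace dual (helper9)

`rrStatement_of_traceDual`: `RRStatement K F` from `∀ t, TraceDualFin K t` (the R1 deliverable),
via the finite half (`finHalf`, helper6), the infinite half (`infHalf`), the residue glue
(`exists_pairing_of_halves`, helper7) and the duality assembly (`rrStatement_of_pairing`, helper6).
-/

set_option autoImplicit false
set_option linter.unusedSectionVars false
set_option linter.style.haveILetI false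

open AlgebraicCurve Polynomial IntermediateField Module KaehlerDifferential Fermat.Agent.FF

noncomputable section

namespace Fermat.Agent.RR

variable {K F : Type*} [Field K] [Field F] [Algebra K F] [IsAlgClosed K] [CharZero K]

/-- the residue pairing from the global trace dual -/
theorem pairingStatement_of_traceDual
    (hT : ∀ (t : F), Transcendental K t → ∀ [FiniteDimensional K⟮t⟯ F], TraceDualFin K t) :
    PairingStatement K F := by
  intro x hx hfd W hW
  haveI := hfd
  haveI : FiniteDimensional K⟮x⁻¹⟯ F :=
    finiteDimensional_congr_intermediateField (adjoin_simple_inv_eq (K := K) x).symm inferInstance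
  exact exists_pairing_of_halves x hx W
    (fun D' g => finHalf x hx (hT x hx) W (fun v _ => hW v) D' g)
    (fun D' g => infHalf x hx (hT x⁻¹ (transcendental_inv hx)) W (fun v _ => hW v) D' g)

/-- **Riemann–Roch for the canonical divisor** from the global trace dual -/
theorem rrStatement_of_traceDual
    (hT : ∀ (t : F), Transcendental K t → ∀ [FiniteDimensional K⟮t⟯ F], TraceDualFin K t) :
    Fermat.Agent.FF.RRStatement K F :=
  rrStatement_of_pairing (pairingStatement_of_traceDual hT)

end Fermat.Agent.RR
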