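import Mathlib

/-!
# RR, step R1: the different of a tamely ramified extension of Dedekind domains

If all residue fields of `A` have characteristic zero, the exponent of a prime `P` of `B` in the
different ideal of `B / A` is exactly `e(P) - 1`.
-/

set_option autoImplicit false
set_option linter.style.haveILetI false
set_option linter.overlappingInstances false

open Algebra Module

attribute [local instance] FractionRing.liftAlgebra FractionRing.isScalarTower_liftAlgebra

namespace Fermat.Agent.RR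

variable (A : Type*) {B : Type*} [CommRing A] [CommRing B] [Algebra A B] [IsDomain A]
  [IsDedekindDomain A] [IsDedekindDomain B] [Module.IsTorsionFree A B] [Module.Finite A B]

/-- If `p B = P * Q` with `P`, `Q` coprime, `P` proper, and the residue field of `p` has
characteristic zero, then `P` does not divide the different. (`P` need not be prime.) -/
theorem not_dvd_differentIdeal_of_isCoprime_of_charZero
    [Algebra.IsSeparable (FractionRing A) (FractionRing B)]
    {p : Ideal A} [p.IsMaximal] [CharZero (A ⧸ p)] (P Q : Ideal B) (hPtop : P ≠ ⊤)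
    (hPQ : IsCoprime P Q) (hP : P * Q = Ideal.map (algebraMap A B) p) :
    ¬ P ∣ differentIdeal A B := by
  letI : Field (A ⧸ p) := Ideal.Quotient.field p
  letI : Algebra (A ⧸ p) (B ⧸ Q) := Ideal.Quotient.algebraQuotientOfLEComap (by
      rw [← Ideal.map_le_iff_le_comap, ← hP]
      exact Ideal.mul_le_right)
  letI : Algebra (A ⧸ p) (B ⧸ P) := Ideal.Quotient.algebraQuotientOfLEComap (by
      rw [← Ideal.map_le_iff_le_comap, ← hP]
      exact Ideal.mul_le_left)
  haveI : IsScalarTower A (A ⧸ p) (B ⧸ Q) := .of_algebraMap_eq' rfl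
  haveI : IsScalarTower A (A ⧸ p) (B ⧸ P) := .of_algebraMap_eq' rfl
  haveI : Module.Finite (A ⧸ p) (B ⧸ Q) :=
    Module.Finite.of_restrictScalars_finite A (A ⧸ p) (B ⧸ Q)
  haveI : Module.Finite (A ⧸ p) (B ⧸ P) :=
    Module.Finite.of_restrictScalars_finite A (A ⧸ p) (B ⧸ P)
  haveI : Nontrivial (B ⧸ P) := Ideal.Quotient.nontrivial_iff.mpr hPtop
  let e : (B ⧸ p.map (algebraMap A B)) ≃ₐ[A ⧸ p] ((B ⧸ P) × B ⧸ Q) :=
    { __ := (Ideal.quotEquivOfEq hP.symm).trans (Ideal.quotientMulEquivQuotientProd P Q hPQ),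
      commutes' := Quotient.ind fun _ ↦ rfl }
  obtain ⟨y, hy⟩ := Ideal.Quotient.mk_surjective (e.symm (1, 0))
  refine not_dvd_differentIdeal_of_intTrace_not_mem A P Q hP y ?_ ?_
  · have := congr((e $hy).2)
    simp at this
    simpa [e, Ideal.Quotient.eq_zero_iff_mem] using this
  · rw [← Ideal.Quotient.eq_zero_iff_mem, ← Algebra.trace_quotient_eq_of_isDedekindDomain,
      hy, Algebra.trace_eq_of_algEquiv, Algebra.trace_prod_apply]
    have h1 : Algebra.trace (A ⧸ p) (B ⧸ P) 1 = (Module.finrank (A ⧸ p) (B ⧸ P) : A ⧸ p) := by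
      have := Algebra.trace_algebraMap (R := A ⧸ p) (S := B ⧸ P) 1
      simpa using this
    simp only [map_zero, add_zero, h1]
    exact_mod_cast (Module.finrank_pos (R := A ⧸ p) (M := B ⧸ P)).ne'

/-- If `P ^ e` exactly divides `p B` (`e ≠ 0`) and the residue field of `p` has characteristic
zero, then `P ^ e` does not divide the different. -/
theorem not_pow_dvd_differentIdeal
    [Algebra.IsSeparable (FractionRing A) (FractionRing B)]
    {p : Ideal A} [p.IsMaximal] [CharZero (A ⧸ p)] (P : Ideal B) [P.IsMaximal] (e : ℕ)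
    (he : e ≠ 0) (hle : p.map (algebraMap A B) ≤ P ^ e)
    (hnle : ¬ p.map (algebraMap A B) ≤ P ^ (e + 1)) :
    ¬ P ^ e ∣ differentIdeal A B := by
  obtain ⟨Q, hQ⟩ : P ^ e ∣ p.map (algebraMap A B) := Ideal.dvd_iff_le.mpr hle
  have hPtop : P ^ e ≠ ⊤ := by
    intro h
    have h1 : P ^ e ≤ P := Ideal.pow_le_self he
    rw [h] at h1
    exact (Ideal.IsMaximal.ne_top ‹_›) (top_le_iff.mp h1)
  have hQP : ¬ Q ≤ P := by
    intro hQP
    apply hnle
    obtain ⟨Q', hQ'⟩ : P ∣ Q := Ideal.dvd_iff_le.mpr hQP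
    rw [hQ, hQ', ← mul_assoc, ← pow_succ]
    exact Ideal.mul_le_left
  have hcop : IsCoprime P Q := by
    rw [Ideal.isCoprime_iff_sup_eq]
    by_contra hne
    apply hQP
    have h1 : P ≤ P ⊔ Q := le_sup_left
    have h2 := (Ideal.IsMaximal.eq_of_le ‹P.IsMaximal› hne h1)
    rw [h2]
    exact le_sup_right
  exact not_dvd_differentIdeal_of_isCoprime_of_charZero A (P ^ e) Q hPtop hcop.pow_left hQ.symm

end Fermat.Agent.RR
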