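import Mathlib
import Fermat.Agent.RR.Pairing
import Fermat.Agent.RR.Different
import Fermat.Agent.FF.ARH

/-!
# Riemann–Roch (item 72), step R1: the trace dual of the integral closure of `K[t]`

`traceDualFin t ht : TraceDualFin K t`: for `h : F`, the traces `Tr_{F/K(t)} (h b)` are polynomials
in `t` for all `b` integral over `K[t]` iff `ord_v h ≥ - ord_v (dt)` at all places `v` where `t` is
finite.  (Dedekind's different theorem in the tame case: the exponent of the different is `e - 1`.)
-/

set_option autoImplicit false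
set_option linter.unusedSectionVars false
set_option linter.style.haveILetI false
set_option linter.overlappingInstances false

open AlgebraicCurve KaehlerDifferential IntermediateField Polynomial IsDedekindDomain
open Fermat.Agent.FF
open scoped nonZeroDivisors

attribute [local instance] FractionRing.liftAlgebra FractionRing.isScalarTower_liftAlgebra

noncomputable section

namespace Fermat.Agent.RR

section Ctx

variable {K F : Type*} [Field K] [Field F] [Algebra K F] [CharZero K] [IsAlgClosed K]
variable [Algebra K[X] F] [IsScalarTower K K[X] F]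
variable [Algebra (RatFunc K) F] [IsScalarTower K[X] (RatFunc K) F]
variable [FiniteDimensional (RatFunc K) F]

theorem charZero_quotient_primeAt (a : K) : CharZero (K[X] ⧸ primeAt K a) := by
  haveI : Nontrivial (K[X] ⧸ primeAt K a) :=
    Ideal.Quotient.nontrivial_iff.mpr (primeAt_isMaximal K a).ne_top
  exact charZero_of_injective_algebraMap (algebraMap K (K[X] ⧸ primeAt K a)).injective

/-- The exponent of `w` in the different is `e - 1`, where `e = ord_w (x - a)`. -/
theorem different_exponent_ctx (a : K) (w : HeightOneSpectrum (intB K F)) (e : ℕ) (he : e ≠ 0)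
    (hval : w.intValuation (xSubB a) = WithZero.exp (-(e : ℤ))) :
    w.asIdeal ^ (e - 1) ∣ differentIdeal K[X] (intB K F) ∧
      ¬ w.asIdeal ^ e ∣ differentIdeal K[X] (intB K F) := by
  have hmap := map_primeAt (K := K) (F := F) a
  have hle : (primeAt K a).map (algebraMap K[X] (intB K F)) ≤ w.asIdeal ^ e := by
    rw [hmap, Ideal.span_le, Set.singleton_subset_iff, SetLike.mem_coe,
      ← w.intValuation_le_pow_iff_mem, hval]
  have hnle : ¬ (primeAt K a).map (algebraMap K[X] (intB K F)) ≤ w.asIdeal ^ (e + 1) := by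
    rw [hmap, Ideal.span_le, Set.singleton_subset_iff, SetLike.mem_coe,
      ← w.intValuation_le_pow_iff_mem, hval, WithZero.exp_le_exp]
    push_cast
    omega
  haveI : w.asIdeal.IsMaximal := w.isMaximal
  haveI := charZero_quotient_primeAt (K := K) a
  exact ⟨pow_sub_one_dvd_differentIdeal K[X] w.asIdeal e (primeAt_ne_bot K a)
    (Ideal.dvd_iff_le.mpr hle), not_pow_dvd_differentIdeal K[X] w.asIdeal e he hle hnle⟩

theorem mem_dual_one_iff_trace (h : F) :
    h ∈ FractionalIdeal.dual K[X] (RatFunc K) (1 : FractionalIdeal (intB K F)⁰ F) ↔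
      ∀ b : intB K F,
        Algebra.trace (RatFunc K) F (h * (b : F)) ∈ (algebraMap K[X] (RatFunc K)).range := by
  rw [FractionalIdeal.mem_dual (one_ne_zero (α := FractionalIdeal (intB K F)⁰ F))]
  constructor
  · intro H b
    have := H (b : F) (FractionalIdeal.coe_mem_one _ b)
    simpa [Algebra.traceForm_apply] using this
  · intro H a ha
    obtain ⟨b, rfl⟩ := (FractionalIdeal.mem_one_iff _).mp ha
    exact H b

theorem mem_dual_one_iff_different (h : F) :
    h ∈ FractionalIdeal.dual K[X] (RatFunc K) (1 : FractionalIdeal (intB K F)⁰ F) ↔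
      ∀ d ∈ differentIdeal K[X] (intB K F), ∀ w : HeightOneSpectrum (intB K F),
        w.valuation F (h * (d : F)) ≤ 1 := by
  have hD : (differentIdeal K[X] (intB K F) : FractionalIdeal (intB K F)⁰ F) ≠ 0 :=
    FractionalIdeal.coeIdeal_ne_zero.mpr differentIdeal_ne_bot
  have h1 : FractionalIdeal.dual K[X] (RatFunc K) (1 : FractionalIdeal (intB K F)⁰ F) =
      (↑(differentIdeal K[X] (intB K F)) : FractionalIdeal (intB K F)⁰ F)⁻¹ := by
    rw [coeIdeal_differentIdeal K[X] (RatFunc K) F (intB K F), inv_inv]
  rw [h1, FractionalIdeal.mem_inv_iff hD]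
  constructor
  · intro H d hd w
    have := H d ((FractionalIdeal.mem_coeIdeal _).mpr ⟨d, hd, rfl⟩)
    obtain ⟨b, hb⟩ := (FractionalIdeal.mem_one_iff _).mp this
    rw [← hb]
    exact w.valuation_le_one b
  · intro H y hy
    obtain ⟨d, hd, rfl⟩ := (FractionalIdeal.mem_coeIdeal _).mp hy
    obtain ⟨b, hb⟩ := HeightOneSpectrum.mem_integers_of_valuation_le_one F
      (h * algebraMap (intB K F) F d) (fun w => H d hd w)
    exact (FractionalIdeal.mem_one_iff _).mpr ⟨b, hb⟩

/-- **Trace dual of the integral closure of `K[x]`** (Dedekind's different theorem, tame case). -/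
theorem traceDual_ctx (h : F) :
    (∀ b : intB K F,
        Algebra.trace (RatFunc K) F (h * (b : F)) ∈ (algebraMap K[X] (RatFunc K)).range) ↔
      ∀ (w : HeightOneSpectrum (intB K F)) (a : K) (e : ℕ), e ≠ 0 →
        w.intValuation (xSubB a) = WithZero.exp (-(e : ℤ)) →
          w.valuation F h ≤ WithZero.exp ((e : ℤ) - 1) := by
  rw [← mem_dual_one_iff_trace, mem_dual_one_iff_different]
  constructor
  · intro H w a e he hval
    obtain ⟨-, hnd⟩ := different_exponent_ctx a w e he hval
    have hnle : ¬ differentIdeal K[X] (intB K F) ≤ w.asIdeal ^ e :=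
      fun hle => hnd (Ideal.dvd_iff_le.mpr hle)
    obtain ⟨d, hd, hdw⟩ := SetLike.not_le_iff_exists.mp hnle
    have hdv : ¬ w.intValuation d ≤ WithZero.exp (-(e : ℤ)) :=
      fun hh => hdw ((w.intValuation_le_pow_iff_mem d e).mp hh)
    have h1 := H d hd w
    have hcoe : ((d : intB K F) : F) = algebraMap (intB K F) F d := rfl
    rw [map_mul, hcoe, w.valuation_of_algebraMap] at h1
    have hd0 : w.intValuation d ≠ 0 := by
      intro h0
      apply hdv
      rw [h0]
      exact zero_le
    by_cases hh : w.valuation F h = 0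
    · rw [hh]
      exact zero_le
    obtain ⟨m, hm⟩ : ∃ m : ℤ, w.valuation F h = WithZero.exp m :=
      ⟨_, (WithZero.exp_log hh).symm⟩
    obtain ⟨n, hn⟩ : ∃ n : ℤ, w.intValuation d = WithZero.exp n :=
      ⟨_, (WithZero.exp_log hd0).symm⟩
    rw [hm, hn, ← WithZero.exp_add, ← WithZero.exp_zero, WithZero.exp_le_exp] at h1
    rw [hn, WithZero.exp_le_exp] at hdv
    rw [hm, WithZero.exp_le_exp]
    omega
  · intro H d hd w
    haveI : w.asIdeal.IsMaximal := w.isMaximal
    obtain ⟨a, ha⟩ := exists_xSubB_mem w.asIdeal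
    have hne : w.intValuation (xSubB a) ≠ 0 := w.intValuation_ne_zero _ (xSubB_ne_zero a)
    have hlt : w.intValuation (xSubB a) < 1 := (w.intValuation_lt_one_iff_mem _).mpr ha
    obtain ⟨m, hm⟩ : ∃ m : ℤ, w.intValuation (xSubB a) = WithZero.exp m :=
      ⟨_, (WithZero.exp_log hne).symm⟩
    have hm0 : m < 0 := by
      rw [hm, ← WithZero.exp_zero, WithZero.exp_lt_exp] at hlt
      exact hlt
    obtain ⟨e, he⟩ : ∃ e : ℕ, m = -(e : ℤ) := ⟨(-m).toNat, by omega⟩
    have he0 : e ≠ 0 := by
      rintro rfl
      simp at he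
      omega
    have hval : w.intValuation (xSubB a) = WithZero.exp (-(e : ℤ)) := by rw [hm, he]
    obtain ⟨hdvd, -⟩ := different_exponent_ctx a w e he0 hval
    have hdmem : d ∈ w.asIdeal ^ (e - 1) := Ideal.le_of_dvd hdvd hd
    have hdv := (w.intValuation_le_pow_iff_mem d (e - 1)).mpr hdmem
    have hh := H w a e he0 hval
    have hcoe : ((d : intB K F) : F) = algebraMap (intB K F) F d := rfl
    rw [map_mul, hcoe, w.valuation_of_algebraMap]
    calc w.valuation F h * w.intValuation d
        ≤ WithZero.exp ((e : ℤ) - 1) * WithZero.exp (-((e - 1 : ℕ) : ℤ)) := mul_le_mul' hh hdv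
      _ = 1 := by
        rw [← WithZero.exp_add, ← WithZero.exp_zero]
        congr 1
        omega

end Ctx

end Fermat.Agent.RR
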