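import Mathlib
import Fermat.Agent.RR.Pairing
import Fermat.Agent.RR.TraceDual
import Fermat.Agent.FF.APlaces
import Fermat.Agent.FF.ARH
import Fermat.Agent.FF.Separation

/-!
# Riemann–Roch (item 72), step R1: chart-free form of the global trace dual (helper6)

`traceDualFin_of_ctx`: the statement `TraceDualFin K t` of `RR/Pairing.lean` follows from the
statement in the instance context of `FF/APlaces.lean` (`TraceDualCtx K F`, proved by helper8).
-/

set_option autoImplicit false
set_option linter.unusedSectionVars false
set_option linter.style.haveILetI false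

open AlgebraicCurve KaehlerDifferential IntermediateField Polynomial IsDedekindDomain
open Fermat.Agent.FF

noncomputable section

namespace Fermat.Agent.RR

/-- The global trace dual in the instance context of `FF/APlaces.lean`, as a proposition. -/
def TraceDualCtx (K F : Type*) [Field K] [Field F] [Algebra K F] [CharZero K] [IsAlgClosed K]
    [Algebra K[X] F] [IsScalarTower K K[X] F] [Algebra (RatFunc K) F]
    [IsScalarTower K[X] (RatFunc K) F] [FiniteDimensional (RatFunc K) F] : Prop :=
  ∀ h : F,
    (∀ b : intB K F, Algebra.trace (RatFunc K) F (h * (b : F)) ∈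
        (algebraMap K[X] (RatFunc K)).range) ↔
      ∀ (w : HeightOneSpectrum (intB K F)) (a : K) (e : ℕ), e ≠ 0 →
        w.intValuation (xSubB a) = WithZero.exp (-(e : ℤ)) →
          w.valuation F h ≤ WithZero.exp ((e : ℤ) - 1)

namespace TraceDualFinAux

section Ctx

variable {K F : Type*} [Field K] [Field F] [Algebra K F] [CharZero K] [IsAlgClosed K]
variable [Algebra K[X] F] [IsScalarTower K K[X] F]
variable [Algebra (RatFunc K) F] [IsScalarTower K[X] (RatFunc K) F]
variable [FiniteDimensional (RatFunc K) F]

theorem algebraMap_poly (p : K[X]) : algebraMap K[X] F p = aeval (genX K F) p := by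
  have h : (IsScalarTower.toAlgHom K K[X] F) = aeval (genX K F) := by
    apply Polynomial.algHom_ext
    rw [aeval_X]
    rfl
  exact DFunLike.congr_fun h p

variable (t : F) (ht : Transcendental K t) [FiniteDimensional K⟮t⟯ F]

theorem algebraMap_ratFunc_eq (hgen : genX K F = t) :
    algebraMap (RatFunc K) F = (algebraMap K⟮t⟯ F).comp
      ((RatFunc.algEquivOfTranscendental t ht).toRingEquiv.toRingHom) := by
  apply IsLocalization.ringHom_ext (nonZeroDivisors K[X])
  refine RingHom.ext fun p => ?_
  rw [RingHom.comp_apply, RingHom.comp_apply, ← IsScalarTower.algebraMap_apply,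
    algebraMap_poly, hgen, RingHom.comp_apply]
  have h1 : (RatFunc.algEquivOfTranscendental t ht).toRingEquiv.toRingHom
      (algebraMap K[X] (RatFunc K) p) = aeval (AdjoinSimple.gen K t) p :=
    RatFunc.algEquivOfTranscendental_algebraMap t ht p
  rw [h1]
  have := Polynomial.aeval_algebraMap_apply F (AdjoinSimple.gen K t) p
  rw [AdjoinSimple.algebraMap_gen] at this
  exact this

theorem algebraMap_ratFunc (hgen : genX K F = t) (u : RatFunc K) :
    algebraMap (RatFunc K) F u = ((RatFunc.algEquivOfTranscendental t ht u : K⟮t⟯) : F) := by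
  rw [algebraMap_ratFunc_eq t ht hgen]
  rfl

include ht in
theorem coe_trace_eq (hgen : genX K F = t) (f : F) :
    ((Algebra.trace K⟮t⟯ F f : K⟮t⟯) : F) =
      algebraMap (RatFunc K) F (Algebra.trace (RatFunc K) F f) := by
  rw [algebraMap_ratFunc t ht hgen]
  have := Algebra.trace_eq_of_ringEquiv (A := RatFunc K) (B := K⟮t⟯) (C := F)
    (RatFunc.algEquivOfTranscendental t ht).toRingEquiv
    (algebraMap_ratFunc_eq t ht hgen).symm f
  rw [← this]
  rfl

include ht in
theorem exists_poly_iff (hgen : genX K F = t) (f : F) :
    (∃ p : K[X], aeval t p = ((Algebra.trace K⟮t⟯ F f : K⟮t⟯) : F)) ↔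
      Algebra.trace (RatFunc K) F f ∈ (algebraMap K[X] (RatFunc K)).range := by
  rw [coe_trace_eq t ht hgen]
  constructor
  · rintro ⟨p, hp⟩
    refine ⟨p, (algebraMap (RatFunc K) F).injective ?_⟩
    rw [← hp, ← IsScalarTower.algebraMap_apply, algebraMap_poly, hgen]
  · rintro ⟨p, hp⟩
    refine ⟨p, ?_⟩
    rw [← hp, ← IsScalarTower.algebraMap_apply, algebraMap_poly, hgen]

theorem genX_mem_ofHeightOneSpectrum (w : HeightOneSpectrum (intB K F)) (b : intB K F) :
    (b : F) ∈ (Place.ofHeightOneSpectrum (K := K) w : Place K F).toValuationSubring := by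
  rw [Place.ofHeightOneSpectrum_toValuationSubring, Valuation.mem_valuationSubring_iff]
  exact w.valuation_le_one b

theorem genX_mem_intB : genX K F ∈ intB K F := by
  have : genX K F = algebraMap K[X] F X := rfl
  rw [this]
  exact Subalgebra.algebraMap_mem _ _

theorem ord_t_nonneg (hgen : genX K F = t) (w : HeightOneSpectrum (intB K F)) :
    0 ≤ (Place.ofHeightOneSpectrum (K := K) w : Place K F).ord t := by
  rw [← hgen]
  exact Fermat.Agent.FF.ord_nonneg_of_mem _
    (genX_mem_ofHeightOneSpectrum w ⟨genX K F, genX_mem_intB⟩)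

theorem genX_mem_of_ord_nonneg (hgen : genX K F = t) (v : Place K F) (hv : 0 ≤ v.ord t) :
    genX K F ∈ v.toValuationSubring := by
  rw [hgen]
  exact Fermat.Agent.FF.H6.mem_of_ord_nonneg v hv

theorem mem_lamFin_zero_iff (hgen : genX K F = t) (b : F) :
    b ∈ lamFin t (0 : Divisor K F) ↔ b ∈ intB K F := by
  rw [mem_lamFin_iff]
  constructor
  · intro h
    have := HeightOneSpectrum.mem_integers_of_valuation_le_one (R := intB K F) F b (fun w => by
      rcases h (Place.ofHeightOneSpectrum (K := K) w) (ord_t_nonneg t hgen w) with h0 | h0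
      · rw [h0, map_zero]; exact zero_le_one
      · rw [Finsupp.zero_apply, neg_zero] at h0
        have hm := Fermat.Agent.FF.H6.mem_of_ord_nonneg _ h0
        rwa [Place.ofHeightOneSpectrum_toValuationSubring,
          Valuation.mem_valuationSubring_iff] at hm)
    obtain ⟨c, hc⟩ := this
    rw [← hc]
    exact c.2
  · intro hb v hv
    right
    rw [Finsupp.zero_apply, neg_zero]
    exact Fermat.Agent.FF.ord_nonneg_of_mem v
      (mem_valuationSubring_of_isIntegral v.toValuationSubring v.algebraMap_mem'
        (genX_mem_of_ord_nonneg t hgen v hv) hb)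

theorem valuation_le_exp_iff (w : HeightOneSpectrum (intB K F)) (h : F) (n : ℤ) :
    w.valuation F h ≤ WithZero.exp n ↔
      h = 0 ∨ -n ≤ (Place.ofHeightOneSpectrum (K := K) w : Place K F).ord h := by
  rcases eq_or_ne h 0 with rfl | hh
  · simp
  have hne : w.valuation F h ≠ 0 := (Valuation.ne_zero_iff _).mpr hh
  rw [ord_ofHeightOneSpectrum, ← WithZero.log_le_iff_le_exp hne]
  constructor
  · intro h1
    right
    omega
  · rintro (h1 | h1)
    · exact absurd h1 hh
    · omega

include ht in
theorem rhs_iff (hgen : genX K F = t) (h : F) :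
    (∀ v : Place K F, 0 ≤ v.ord t → h = 0 ∨ -v.ordDifferential (D K F t) ≤ v.ord h) ↔
      ∀ (w : HeightOneSpectrum (intB K F)) (a : K) (e : ℕ), e ≠ 0 →
        w.intValuation (xSubB a) = WithZero.exp (-(e : ℤ)) →
          w.valuation F h ≤ WithZero.exp ((e : ℤ) - 1) := by
  constructor
  · intro H w a e he hw
    rw [valuation_le_exp_iff]
    have hord : (Place.ofHeightOneSpectrum (K := K) w : Place K F).ord
        (t - algebraMap K F a) = e := by
      rw [← hgen, ord_genX_sub, hw, WithZero.log_exp, neg_neg]
    have hmem : (Place.ofHeightOneSpectrum (K := K) w : Place K F) ∈ placesOver t a := by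
      have h0 : (0 : ℤ) < (Place.ofHeightOneSpectrum (K := K) w : Place K F).ord
          (t - algebraMap K F a) := by
        rw [hord]
        exact_mod_cast Nat.pos_of_ne_zero he
      exact h0
    have hd := ordDifferential_D_of_mem_placesOver t ht a _ hmem
    rcases H _ (ord_t_nonneg t hgen w) with h0 | h0
    · exact Or.inl h0
    · right
      rw [hd, hord] at h0
      exact h0
  · intro H v hv
    have hx := genX_mem_of_ord_nonneg t hgen v hv
    have hvc := eq_ofHeightOneSpectrum_center v hx
    obtain ⟨a, ha⟩ := exists_ord_genX_sub_pos v hx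
    have hd := ordDifferential_D_of_mem_placesOver t ht a v (by
      have h0 : (0 : ℤ) < v.ord (t - algebraMap K F a) := by
        rw [← hgen]
        exact ha
      exact h0)
    obtain ⟨e, he⟩ : ∃ e : ℕ, (e : ℤ) = v.ord (genX K F - algebraMap K F a) :=
      ⟨(v.ord (genX K F - algebraMap K F a)).toNat, Int.toNat_of_nonneg ha.le⟩
    have he0 : e ≠ 0 := by
      rintro rfl
      rw [← he] at ha
      exact lt_irrefl _ ha
    have hw : (center v hx).intValuation (xSubB a) = WithZero.exp (-(e : ℤ)) := by
      have h1 := ord_genX_sub (K := K) (F := F) a (center v hx)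
      rw [← hvc, ← he] at h1
      have hne : (center v hx).intValuation (xSubB a) ≠ 0 :=
        (center v hx).intValuation_ne_zero _ (xSubB_ne_zero a)
      rw [← WithZero.exp_log hne]
      congr 1
      omega
    have := (valuation_le_exp_iff (center v hx) h _).mp (H (center v hx) a e he0 hw)
    rw [← hvc] at this
    rcases this with h0 | h0
    · exact Or.inl h0
    · right
      rw [hd, ← hgen, ← he]
      exact h0

include ht in
/-- the chart-free form, in the instance context -/
theorem traceDualFin_ctx (hgen : genX K F = t) (hC : TraceDualCtx K F) : TraceDualFin K t := by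
  intro h
  rw [rhs_iff t ht hgen h, ← hC h]
  constructor
  · intro H b
    rw [← exists_poly_iff t ht hgen]
    exact H b ((mem_lamFin_zero_iff t hgen b).mpr b.2)
  · intro H b hb
    rw [exists_poly_iff t ht hgen]
    exact H ⟨b, (mem_lamFin_zero_iff t hgen b).mp hb⟩

end Ctx

end TraceDualFinAux

section Main

variable {K F : Type*} [Field K] [Field F] [Algebra K F] [IsAlgClosed K] [CharZero K]

/-- **R1, chart-free form**: `TraceDualFin K t` from the statement in the instance context. -/
theorem traceDualFin_of_ctx
    (hC : ∀ [Algebra K[X] F] [IsScalarTower K K[X] F] [Algebra (RatFunc K) F]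
      [IsScalarTower K[X] (RatFunc K) F] [FiniteDimensional (RatFunc K) F], TraceDualCtx K F)
    (t : F) (ht : Transcendental K t) [FiniteDimensional K⟮t⟯ F] : TraceDualFin K t := by
  refine ctx_elim t ht ?_
  intro _ _ _ _ _ hgen _
  exact TraceDualFinAux.traceDualFin_ctx t ht hgen hC

/-- **R1 + (C1)**: the global trace dual of the integral closure of `K[t]`. -/
theorem traceDualFin (t : F) (ht : Transcendental K t) [FiniteDimensional K⟮t⟯ F] :
    TraceDualFin K t :=
  traceDualFin_of_ctx (fun h => traceDual_ctx h) t ht

end Main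

end Fermat.Agent.RR
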