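import Mathlib
import Fermat.Agent.RR.AFinal
import Fermat.Agent.RR.TraceDualFin

/-!
# Item 72: Riemann–Roch for the canonical divisor of a function field (final statement)

`rrStatement K F : RRStatement K F` for every function field `F / K` (`K` algebraically closed of
characteristic zero): if `x` is transcendental with `F / K(x)` finite and `W = div(dx)`, then
`L(W)` is finite-dimensional and `2 * dim L(W) = deg W + 2`.
-/

set_option autoImplicit false

open AlgebraicCurve IntermediateField

noncomputable section

namespace Fermat.Agent.RR

variable (K F : Type*) [Field K] [Field F] [Algebra K F] [IsAlgClosed K] [CharZero K]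

/-- the residue pairing exists -/
theorem pairingStatement : PairingStatement K F :=
  pairingStatement_of_traceDual (fun t ht => traceDualFin t ht)

/-- **Item 72 deliverable**: Riemann–Roch for the canonical divisor. -/
theorem rrStatement : Fermat.Agent.FF.RRStatement K F :=
  rrStatement_of_traceDual (fun t ht => traceDualFin t ht)

end Fermat.Agent.RR
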