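import Mathlib
import Fermat.Agent.FF.APlaces

/-!
# Riemann–Roch (item 72): bridge between the chart context and `K⟮t⟯`

In the context of `FF/APlaces.lean` with `genX K F = t`, the structure map `RatFunc K → F` is
`RatFunc.algEquivOfTranscendental t ht` followed by the inclusion, and the trace
`Tr_{F/RatFunc K}` corresponds to `Tr_{F/K⟮t⟯}`.
-/

set_option autoImplicit false
set_option linter.unusedSectionVars false

open AlgebraicCurve IntermediateField Polynomial
open Fermat.Agent.FF

noncomputable section

namespace Fermat.Agent.RR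

section Ctx

variable {K F : Type*} [Field K] [Field F] [Algebra K F]
variable [Algebra K[X] F] [IsScalarTower K K[X] F]
variable [Algebra (RatFunc K) F] [IsScalarTower K[X] (RatFunc K) F]

theorem algebraMap_polynomial_eq_aeval {t : F} (hgen : genX K F = t) (p : K[X]) :
    algebraMap K[X] F p = Polynomial.aeval t p := by
  have h : (IsScalarTower.toAlgHom K K[X] F) = Polynomial.aeval t := by
    apply Polynomial.algHom_ext
    rw [Polynomial.aeval_X]
    exact hgen
  exact congrArg (fun φ : K[X] →ₐ[K] F => φ p) h

theorem algebraMap_ratFunc_eq {t : F} (ht : Transcendental K t) (hgen : genX K F = t)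
    (u : RatFunc K) :
    algebraMap (RatFunc K) F u = ((RatFunc.algEquivOfTranscendental t ht u : K⟮t⟯) : F) := by
  have h : algebraMap (RatFunc K) F =
      (algebraMap K⟮t⟯ F).comp
        ((RatFunc.algEquivOfTranscendental t ht : RatFunc K ≃ₐ[K] K⟮t⟯) : RatFunc K →+* K⟮t⟯) := by
    apply IsLocalization.ringHom_ext (nonZeroDivisors K[X])
    ext p
    · simp only [RingHom.coe_comp, Function.comp_apply]
      rw [← IsScalarTower.algebraMap_apply K[X] (RatFunc K) F,
        algebraMap_polynomial_eq_aeval hgen]
      have h1 := RatFunc.algEquivOfTranscendental_algebraMap t ht (Polynomial.C p)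
      have h2 : ((RatFunc.algEquivOfTranscendental t ht : RatFunc K ≃ₐ[K] K⟮t⟯) :
          RatFunc K →+* K⟮t⟯) (algebraMap K[X] (RatFunc K) (Polynomial.C p)) =
          RatFunc.algEquivOfTranscendental t ht (algebraMap K[X] (RatFunc K) (Polynomial.C p)) :=
        rfl
      rw [h2, h1]
      simp
    · simp only [RingHom.coe_comp, Function.comp_apply]
      rw [← IsScalarTower.algebraMap_apply K[X] (RatFunc K) F,
        algebraMap_polynomial_eq_aeval hgen]
      have h1 := RatFunc.algEquivOfTranscendental_algebraMap t ht Polynomial.X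
      have h2 : ((RatFunc.algEquivOfTranscendental t ht : RatFunc K ≃ₐ[K] K⟮t⟯) :
          RatFunc K →+* K⟮t⟯) (algebraMap K[X] (RatFunc K) Polynomial.X) =
          RatFunc.algEquivOfTranscendental t ht (algebraMap K[X] (RatFunc K) Polynomial.X) :=
        rfl
      rw [h2, h1]
      simp
  exact congrArg (fun φ : RatFunc K →+* F => φ u) h

/-- The trace to `RatFunc K` corresponds to the trace to `K⟮t⟯`. -/
theorem trace_bridge {t : F} (ht : Transcendental K t) (hgen : genX K F = t) (f : F) :
    RatFunc.algEquivOfTranscendental t ht (Algebra.trace (RatFunc K) F f) =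
      Algebra.trace K⟮t⟯ F f := by
  have he : (algebraMap K⟮t⟯ F).comp
      ((RatFunc.algEquivOfTranscendental t ht).toRingEquiv : RatFunc K →+* K⟮t⟯) =
      ((RingEquiv.refl F : F ≃+* F) : F →+* F).comp (algebraMap (RatFunc K) F) := by
    ext u
    simp only [RingHom.coe_comp, Function.comp_apply]
    exact (algebraMap_ratFunc_eq ht hgen u).symm
  have := Algebra.trace_eq_of_equiv_equiv (RatFunc.algEquivOfTranscendental t ht).toRingEquiv
    (RingEquiv.refl F) he f
  rw [this]
  simp

/-- `Tr_{F/RatFunc K} f` is a polynomial iff `Tr_{F/K⟮t⟯} f` is a polynomial in `t`. -/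
theorem trace_mem_range_iff {t : F} (ht : Transcendental K t) (hgen : genX K F = t) (f : F) :
    Algebra.trace (RatFunc K) F f ∈ (algebraMap K[X] (RatFunc K)).range ↔
      ∃ p : K[X], Polynomial.aeval t p = ((Algebra.trace K⟮t⟯ F f : K⟮t⟯) : F) := by
  rw [← trace_bridge ht hgen f, ← algebraMap_ratFunc_eq ht hgen]
  constructor
  · rintro ⟨p, hp⟩
    refine ⟨p, ?_⟩
    rw [← hp, ← IsScalarTower.algebraMap_apply K[X] (RatFunc K) F,
      algebraMap_polynomial_eq_aeval hgen]
  · rintro ⟨p, hp⟩
    refine ⟨p, ?_⟩
    apply (algebraMap (RatFunc K) F).injective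
    rw [← hp, ← IsScalarTower.algebraMap_apply K[X] (RatFunc K) F,
      algebraMap_polynomial_eq_aeval hgen]

end Ctx

end Fermat.Agent.RR
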